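import Mathlib.RingTheory.Valuation.ValuationSubring
import Mathlib.Tactic.LinearCombination
import Mathlib.Tactic.FieldSimp

/-!
# `γ(t₄) ≡ α(t₄)` from `γ(j_d) ≡ α(j_d)`, `d ∣ 4` (helper878, S36 REG / R4)

Mathlib only.  `V` a valuation subring of a field `L` (application: `V = V_mid`).  Unprimed
letters: images under `α` (inclusion `F_M → F_{q² M}`); primed letters: images under
`γ : f(t) ↦ f(t^{q²})`.  The Hauptmoduln are rational in the `j_d`:

  `U₂(j, j₂) · t₂ = W₂(j, j₂)`       (`Lib.Haupt.t2_lin`),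
  `U₂(j₂, j₄) · t₂(t²) = W₂(j₂, j₄)`  (`qExpand 2` of it),
  `t₄ · (t₂ + 16) = t₂(t²) - 16 t₂`   (`Haupt4.t4_mul`),

so congruences `j_d' ≡ j_d mod 𝔪_V` propagate to `t₄' ≡ t₄ mod 𝔪_V` as soon as the denominators
`U₂(j, j₂)`, `U₂(j₂, j₄)`, `t₂ + 16` are units of `V` (Gauss units: their `t`-expansions have
leading coefficient `1`).  This is hypothesis `hx` of `hres_transfer4`.
-/

set_option autoImplicit false

namespace Fermat.Agent.S36.H878

variable {L : Type*} [Field L]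

theorem mul_mem_nonunits_of_mem (V : ValuationSubring L) {a b : L}
    (ha : a ∈ V) (hb : b ∈ V.nonunits) : a * b ∈ V.nonunits := by
  rw [ValuationSubring.mem_nonunits_iff, map_mul, mul_comm]
  exact mul_lt_one_of_lt_of_le ((V.mem_nonunits_iff).1 hb) ((V.valuation_le_one_iff _).2 ha)

theorem mem_of_mem_nonunits' (V : ValuationSubring L) {a : L} (ha : a ∈ V.nonunits) : a ∈ V :=
  (V.valuation_le_one_iff _).1 ((V.mem_nonunits_iff).1 ha).le

theorem valuation_eq_one_of_sub_mem_nonunits (V : ValuationSubring L) {a b : L}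
    (ha : V.valuation a = 1) (hab : b - a ∈ V.nonunits) : V.valuation b = 1 := by
  have h1 : V.valuation (b - a) < V.valuation a := by
    rw [ha]; exact (V.mem_nonunits_iff).1 hab
  have h2 := Valuation.map_add_eq_of_lt_right V.valuation h1
  rw [sub_add_cancel] at h2
  rw [h2, ha]

/-- If `U t = W`, `U' t' = W'` with `U` a unit of `V`, `U' ≡ U`, `W' ≡ W` modulo `𝔪_V`, then
`t, t' ∈ V` and `t' ≡ t`. -/
theorem lin_congr (V : ValuationSubring L) {U W t U' W' t' : L}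
    (hU : V.valuation U = 1) (hW : W ∈ V) (hW' : W' ∈ V)
    (h : U * t = W) (h' : U' * t' = W')
    (hUU : U' - U ∈ V.nonunits) (hWW : W' - W ∈ V.nonunits) :
    t ∈ V ∧ t' ∈ V ∧ t' - t ∈ V.nonunits := by
  have hU' : V.valuation U' = 1 := valuation_eq_one_of_sub_mem_nonunits V hU hUU
  have hU0 : U ≠ 0 := fun h0 => by rw [h0, map_zero] at hU; exact zero_ne_one hU
  have hU'0 : U' ≠ 0 := fun h0 => by rw [h0, map_zero] at hU'; exact zero_ne_one hU'
  have ht : t = W * U⁻¹ := by rw [← h]; field_simp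
  have ht' : t' = W' * U'⁻¹ := by rw [← h']; field_simp
  have hvt : V.valuation t ≤ 1 := by
    rw [ht, map_mul, map_inv₀, hU, inv_one, mul_one]
    exact (V.valuation_le_one_iff _).2 hW
  have hvt' : V.valuation t' ≤ 1 := by
    rw [ht', map_mul, map_inv₀, hU', inv_one, mul_one]
    exact (V.valuation_le_one_iff _).2 hW'
  refine ⟨(V.valuation_le_one_iff _).1 hvt, (V.valuation_le_one_iff _).1 hvt', ?_⟩
  have e : t' - t = ((W' - W) - t * (U' - U)) * U'⁻¹ := by
    rw [ht', ht]; field_simp; ring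
  have hnum : (W' - W) - t * (U' - U) ∈ V.nonunits :=
    sub_mem hWW (mul_mem_nonunits_of_mem V ((V.valuation_le_one_iff _).1 hvt) hUU)
  rw [ValuationSubring.mem_nonunits_iff, e, map_mul, map_inv₀, hU', inv_one, mul_one]
  exact (V.mem_nonunits_iff).1 hnum

theorem sub_mem_nonunits_of_mul (V : ValuationSubring L) {a b a' b' : L}
    (ha : a ∈ V) (hb' : b' ∈ V) (haa : a' - a ∈ V.nonunits) (hbb : b' - b ∈ V.nonunits) :
    a' * b' - a * b ∈ V.nonunits := by
  have e : a' * b' - a * b = b' * (a' - a) + a * (b' - b) := by ring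
  rw [e]
  exact add_mem (mul_mem_nonunits_of_mem V hb' haa) (mul_mem_nonunits_of_mem V ha hbb)

/-- `U₂(x, y) = x y - 720 x - 720 y - 16250625` respects congruences modulo `𝔪_V`. -/
theorem U2_congr (V : ValuationSubring L) {x y x' y' : L}
    (hx : x ∈ V) (hy' : y' ∈ V) (hxx : x' - x ∈ V.nonunits) (hyy : y' - y ∈ V.nonunits) :
    (x' * y' - 720 * x' - 720 * y' - 16250625) - (x * y - 720 * x - 720 * y - 16250625)
      ∈ V.nonunits := by
  have h1 := sub_mem_nonunits_of_mul V hx hy' hxx hyy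
  have e : (x' * y' - 720 * x' - 720 * y' - 16250625) - (x * y - 720 * x - 720 * y - 16250625)
      = (x' * y' - x * y) - (720 * (x' - x) + 720 * (y' - y)) := by ring
  rw [e]
  have h720 : (720 : L) ∈ V := ofNat_mem V 720
  exact sub_mem h1 (add_mem (mul_mem_nonunits_of_mem V h720 hxx)
    (mul_mem_nonunits_of_mem V h720 hyy))

/-- `W₂(x, y) = y² + 4095 x + 195120 y + 660960000` respects congruences modulo `𝔪_V`. -/
theorem W2_congr (V : ValuationSubring L) {x y x' y' : L}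
    (hy : y ∈ V) (hy' : y' ∈ V) (hxx : x' - x ∈ V.nonunits) (hyy : y' - y ∈ V.nonunits) :
    (y' ^ 2 + 4095 * x' + 195120 * y' + 660960000) - (y ^ 2 + 4095 * x + 195120 * y + 660960000)
      ∈ V.nonunits := by
  have e : (y' ^ 2 + 4095 * x' + 195120 * y' + 660960000)
        - (y ^ 2 + 4095 * x + 195120 * y + 660960000)
      = (y' + y) * (y' - y) + (4095 * (x' - x) + 195120 * (y' - y)) := by ring
  rw [e]
  exact add_mem (mul_mem_nonunits_of_mem V (add_mem hy' hy) hyy)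
    (add_mem (mul_mem_nonunits_of_mem V (ofNat_mem V 4095) hxx)
      (mul_mem_nonunits_of_mem V (ofNat_mem V 195120) hyy))

theorem U2_mem (V : ValuationSubring L) {x y : L} (hx : x ∈ V) (hy : y ∈ V) :
    x * y - 720 * x - 720 * y - 16250625 ∈ V :=
  sub_mem (sub_mem (sub_mem (mul_mem hx hy) (mul_mem (ofNat_mem V 720) hx))
    (mul_mem (ofNat_mem V 720) hy)) (ofNat_mem V 16250625)

theorem W2_mem (V : ValuationSubring L) {x y : L} (hx : x ∈ V) (hy : y ∈ V) :
    y ^ 2 + 4095 * x + 195120 * y + 660960000 ∈ V :=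
  add_mem (add_mem (add_mem (pow_mem hy 2) (mul_mem (ofNat_mem V 4095) hx))
    (mul_mem (ofNat_mem V 195120) hy)) (ofNat_mem V 660960000)

/-- **`t₂' ≡ t₂`** from `j' ≡ j`, `j₂' ≡ j₂`. -/
theorem t2_congr (V : ValuationSubring L) {j j2 t2 j' j2' t2' : L}
    (hj : j ∈ V) (hj2 : j2 ∈ V)
    (c1 : j' - j ∈ V.nonunits) (c2 : j2' - j2 ∈ V.nonunits)
    (hU : V.valuation (j * j2 - 720 * j - 720 * j2 - 16250625) = 1)
    (l : (j * j2 - 720 * j - 720 * j2 - 16250625) * t2
      = j2 ^ 2 + 4095 * j + 195120 * j2 + 660960000)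
    (l' : (j' * j2' - 720 * j' - 720 * j2' - 16250625) * t2'
      = j2' ^ 2 + 4095 * j' + 195120 * j2' + 660960000) :
    t2 ∈ V ∧ t2' ∈ V ∧ t2' - t2 ∈ V.nonunits := by
  have hj' : j' ∈ V := by
    have := add_mem (mem_of_mem_nonunits' V c1) hj
    simpa using this
  have hj2' : j2' ∈ V := by
    have := add_mem (mem_of_mem_nonunits' V c2) hj2
    simpa using this
  exact lin_congr V hU (W2_mem V hj hj2) (W2_mem V hj' hj2') l l'
    (U2_congr V hj hj2' c1 c2) (W2_congr V hj2 hj2' c1 c2)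

/-- **`γ(t₄) ≡ α(t₄)` modulo `𝔪_V`** from `γ(j_d) ≡ α(j_d)`, `d ∈ {1, 2, 4}`. -/
theorem t4_congr (V : ValuationSubring L) {j j2 j4 t2 t2e t4 j' j2' j4' t2' t2e' t4' : L}
    (hj : j ∈ V) (hj2 : j2 ∈ V) (hj4 : j4 ∈ V)
    (c1 : j' - j ∈ V.nonunits) (c2 : j2' - j2 ∈ V.nonunits) (c4 : j4' - j4 ∈ V.nonunits)
    (hU : V.valuation (j * j2 - 720 * j - 720 * j2 - 16250625) = 1)
    (hUe : V.valuation (j2 * j4 - 720 * j2 - 720 * j4 - 16250625) = 1)
    (h16 : V.valuation (t2 + 16) = 1)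
    (l1 : (j * j2 - 720 * j - 720 * j2 - 16250625) * t2
      = j2 ^ 2 + 4095 * j + 195120 * j2 + 660960000)
    (l2 : (j2 * j4 - 720 * j2 - 720 * j4 - 16250625) * t2e
      = j4 ^ 2 + 4095 * j2 + 195120 * j4 + 660960000)
    (l3 : t4 * (t2 + 16) = t2e - 16 * t2)
    (l1' : (j' * j2' - 720 * j' - 720 * j2' - 16250625) * t2'
      = j2' ^ 2 + 4095 * j' + 195120 * j2' + 660960000)
    (l2' : (j2' * j4' - 720 * j2' - 720 * j4' - 16250625) * t2e'
      = j4' ^ 2 + 4095 * j2' + 195120 * j4' + 660960000)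
    (l3' : t4' * (t2' + 16) = t2e' - 16 * t2') :
    t4 ∈ V ∧ t4' ∈ V ∧ t4' - t4 ∈ V.nonunits := by
  obtain ⟨ht2, ht2', d2⟩ := t2_congr V hj hj2 c1 c2 hU l1 l1'
  obtain ⟨ht2e, ht2e', d2e⟩ := t2_congr V hj2 hj4 c2 c4 hUe l2 l2'
  have h16V : (16 : L) ∈ V := ofNat_mem V 16
  refine lin_congr V (U := t2 + 16) (U' := t2' + 16) (W := t2e - 16 * t2)
    (W' := t2e' - 16 * t2') h16 (sub_mem ht2e (mul_mem h16V ht2))
    (sub_mem ht2e' (mul_mem h16V ht2')) (by rw [mul_comm]; exact l3)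
    (by rw [mul_comm]; exact l3') ?_ ?_
  · have e : t2' + 16 - (t2 + 16) = t2' - t2 := by ring
    rw [e]; exact d2
  · have e : t2e' - 16 * t2' - (t2e - 16 * t2) = (t2e' - t2e) - 16 * (t2' - t2) := by ring
    rw [e]
    exact sub_mem d2e (mul_mem_nonunits_of_mem V h16V d2)

end Fermat.Agent.S36.H878
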