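import Fermat.Agent.A2.Mod.Spec
import Fermat.Agent.A2.H528.FrobCong

/-!
# Gauss units and the Frobenius congruence in `V∞` (helper878, S36 cell REG / leaf `LeafReg`)

`V = V∞` the Gauss valuation ring of `F_{N,E}` (`A2.Mod.IsVinf P E N V`), any level `N`.

* `mem_of_intSeries`     : an element of `F_{N,E}` whose `t`-expansion has INTEGER coefficients
                           lies in `V∞`;
* `unitAt_of_intSeries`  : … and is a unit of `V∞` if the expansion is nonzero modulo `q`
                           (over the residue field of `R_E`);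
* `natCast_mem_nonunits` : `q ∈ 𝔪_{V∞}` if `P` lies over `q`;
* `frob_mem_nonunits`    : **Frobenius congruence**: `f(t^q) - f(t)^q ∈ 𝔪_{V∞}` for `f` with
                           integer `t`-expansion.
-/

set_option autoImplicit false
set_option synthInstance.maxHeartbeats 400000
set_option maxHeartbeats 1600000

noncomputable section

namespace Fermat.Agent.S36.H878

open ModularCurve HahnSeries Fermat.Agent.A2 Fermat.Agent.A2.Mod

variable (P : ValuationSubring Qb) (E : IntermediateField ℚ Qb) (N : ℕ)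

/-- An integer series, as a series over `R_E`. -/
def intA (Z : LaurentSeries ℤ) : LaurentSeries (RE P E) :=
  coeffMap (Int.castRingHom (RE P E)) Z

theorem incl_intA (Z : LaurentSeries ℤ) :
    H708.incl (RE P E) (intA P E Z) = coeffMap (Int.castRingHom E) Z := by
  rw [intA, H708.incl, coeffMap_coeffMap]
  exact coeffMap_congr (RingHom.ext_int _ _) Z

theorem red_intA (Z : LaurentSeries ℤ) :
    H708.red (RE P E) (intA P E Z)
      = coeffMap (Int.castRingHom (IsLocalRing.ResidueField (RE P E))) Z := by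
  rw [intA, H708.red, coeffMap_coeffMap]
  exact coeffMap_congr (RingHom.ext_int _ _) Z

variable {P E N}

/-- An element with integer `t`-expansion lies in `V∞`. -/
theorem mem_of_intSeries {V : ValuationSubring (FE E N)} (hV : IsVinf P E N V)
    (f : FE E N) (Z : LaurentSeries ℤ)
    (hf : (f : LaurentSeries E) = coeffMap (Int.castRingHom E) Z) : f ∈ V := by
  rw [hV f, hf, ← incl_intA P E]
  exact H708.IsGaussInt.of_incl _

/-- An element with integer `t`-expansion, nonzero modulo `q`, is a unit of `V∞`. -/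
theorem unitAt_of_intSeries {V : ValuationSubring (FE E N)} (hV : IsVinf P E N V)
    (f : FE E N) (Z : LaurentSeries ℤ)
    (hf : (f : LaurentSeries E) = coeffMap (Int.castRingHom E) Z)
    (hZ : coeffMap (Int.castRingHom (IsLocalRing.ResidueField (RE P E))) Z ≠ 0) :
    f ≠ 0 ∧ f ∈ V ∧ f⁻¹ ∈ V := by
  have hZ0 : Z ≠ 0 := fun h => hZ (by rw [h, map_zero])
  have hf0 : (f : LaurentSeries E) ≠ 0 := by
    rw [hf]
    intro h
    apply hZ0
    have hinj : Function.Injective (coeffMap (Int.castRingHom E)) :=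
      Fermat.Agent.S18.H602.coeffMap_injective _ (RingHom.injective_int _)
    exact hinj (by rw [h, map_zero])
  have hf0' : f ≠ 0 := fun h => hf0 (by rw [h]; rfl)
  refine ⟨hf0', mem_of_intSeries hV f Z hf, ?_⟩
  rw [hV (f⁻¹)]
  refine ⟨1, intA P E Z, ?_, ?_, ?_⟩
  · rw [red_intA]
    exact hZ
  · rw [incl_intA, ← hf]
    exact f.2
  · rw [incl_intA, ← hf, IntermediateField.coe_inv, inv_mul_cancel₀ hf0, map_one]

/-- A constant of `E` lies in `V∞` iff it lies in `R_E`. -/
theorem algebraMap_mem_iff {V : ValuationSubring (FE E N)} (hV : IsVinf P E N V) (c : E) :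
    algebraMap E (FE E N) c ∈ V ↔ c ∈ RE P E := by
  rw [hV]
  have he : ((algebraMap E (FE E N) c : FE E N) : LaurentSeries E) * H708.incl (RE P E) 1
      = H708.cst c * H708.incl (RE P E) 1 := rfl
  exact H708.isGaussInt_iff_of_normal_form (by rw [map_one]; exact one_ne_zero)
    (by rw [map_one]; exact one_ne_zero) (by rw [map_one]; exact one_mem _) he

/-- A nonzero element is a non-unit of `V` iff its inverse is not in `V`. -/
theorem mem_nonunits_iff_inv_not_mem {K : Type*} [Field K] (V : ValuationSubring K) {x : K}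
    (hx : x ≠ 0) : x ∈ V.nonunits ↔ x⁻¹ ∉ V := by
  have hv : 0 < V.valuation x := zero_lt_iff.2 ((Valuation.ne_zero_iff _).2 hx)
  rw [ValuationSubring.mem_nonunits_iff, ← V.valuation_le_one_iff, map_inv₀, inv_le_one₀ hv,
    not_le]

/-- The image of a non-unit under a field embedding `φ` is a non-unit of `V` if `V.comap φ` is
the given valuation ring. -/
theorem map_mem_nonunits_of_comap {K K' : Type*} [Field K] [Field K'] (φ : K →+* K')
    (V : ValuationSubring K') (V' : ValuationSubring K) (h : V.comap φ = V') {x : K}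
    (hx : x ∈ V'.nonunits) : φ x ∈ V.nonunits := by
  by_cases hx0 : x = 0
  · rw [hx0, map_zero, ValuationSubring.mem_nonunits_iff, map_zero]
    exact zero_lt_one
  · have hφ0 : φ x ≠ 0 := (map_ne_zero φ).2 hx0
    rw [mem_nonunits_iff_inv_not_mem V hφ0, ← map_inv₀, ← ValuationSubring.mem_comap, h]
    exact (mem_nonunits_iff_inv_not_mem V' hx0).1 hx

/-- The image of a unit under a field embedding `φ` is a unit of `V` if `V.comap φ` is the given
valuation ring. -/
theorem map_unit_of_comap {K K' : Type*} [Field K] [Field K'] (φ : K →+* K')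
    (V : ValuationSubring K') (V' : ValuationSubring K) (h : V.comap φ = V') {x : K}
    (hx : x ≠ 0 ∧ x ∈ V' ∧ x⁻¹ ∈ V') : φ x ≠ 0 ∧ φ x ∈ V ∧ (φ x)⁻¹ ∈ V := by
  obtain ⟨h0, h1, h2⟩ := hx
  rw [← h, ValuationSubring.mem_comap] at h1 h2
  rw [map_inv₀] at h2
  exact ⟨(map_ne_zero φ).2 h0, h1, h2⟩

/-- `q ∈ 𝔪_{V∞}` if `P` lies over `q`. -/
theorem natCast_mem_nonunits {V : ValuationSubring (FE E N)} (hV : IsVinf P E N V)
    {q : ℕ} (hP : P.LiesOverPrime q) : ((q : ℕ) : FE E N) ∈ V.nonunits := by
  by_cases hq0 : ((q : ℕ) : FE E N) = 0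
  · rw [hq0, ValuationSubring.mem_nonunits_iff, map_zero]
    exact zero_lt_one
  · have hqE : ((q : ℕ) : E) ≠ 0 := by
      intro h
      apply hq0
      have : ((q : ℕ) : FE E N) = algebraMap E (FE E N) ((q : ℕ) : E) := by
        rw [map_natCast]
      rw [this, h, map_zero]
    have hqQ : ((q : ℕ) : Qb) ≠ 0 := by
      intro h
      apply hqE
      have : algebraMap E Qb ((q : ℕ) : E) = 0 := by rw [map_natCast]; exact h
      exact (map_eq_zero _).1 this
    rw [mem_nonunits_iff_inv_not_mem V hq0]
    have e : (((q : ℕ) : FE E N))⁻¹ = algebraMap E (FE E N) (((q : ℕ) : E)⁻¹) := by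
      rw [map_inv₀, map_natCast]
    rw [e, algebraMap_mem_iff hV, ValuationSubring.mem_comap, map_inv₀, map_natCast]
    exact (mem_nonunits_iff_inv_not_mem P hqQ).1 hP

/-- **Frobenius congruence in `V∞`**: `f(t^q) - f(t)^q ∈ 𝔪_{V∞}` for `f` with integer
`t`-expansion (`g` is the element `f(t^q)`). -/
theorem frob_mem_nonunits {V : ValuationSubring (FE E N)} (hV : IsVinf P E N V)
    {q : ℕ} (hq : q.Prime) [NeZero q] (hP : P.LiesOverPrime q)
    (f g : FE E N) (Z : LaurentSeries ℤ)
    (hf : (f : LaurentSeries E) = coeffMap (Int.castRingHom E) Z)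
    (hg : (g : LaurentSeries E) = qExpand E q (coeffMap (Int.castRingHom E) Z)) :
    g - f ^ q ∈ V.nonunits := by
  have : Fact q.Prime := ⟨hq⟩
  obtain ⟨G, hG⟩ := Fermat.Agent.A2.H528.exists_frobCong q Z
  by_cases hq0 : ((q : ℕ) : FE E N) = 0
  · -- impossible in characteristic zero, but harmless
    exfalso
    have h1 : ((q : ℕ) : FE E N) = algebraMap ℚ (FE E N) (q : ℚ) := by rw [map_natCast]
    rw [h1, map_eq_zero] at hq0
    exact hq.ne_zero (by exact_mod_cast hq0)
  -- `h = (g - f^q) / q`
  set h : FE E N := (g - f ^ q) * ((q : ℕ) : FE E N)⁻¹ with hh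
  have e : g - f ^ q = h * ((q : ℕ) : FE E N) := by
    rw [hh, inv_mul_cancel_right₀ hq0]
  have hcoe : ((g - f ^ q : FE E N) : LaurentSeries E)
      = (g : LaurentSeries E) - (f : LaurentSeries E) ^ q := rfl
  have hser : ((g - f ^ q : FE E N) : LaurentSeries E)
      = coeffMap (Int.castRingHom E) (HahnSeries.C ((q : ℕ) : ℤ) * G) := by
    rw [← hG, map_sub, map_pow, coeffMap_qExpand, ← hg, ← hf, hcoe]
  have hCq : coeffMap (Int.castRingHom E) (HahnSeries.C ((q : ℕ) : ℤ))
      = (((q : ℕ) : FE E N) : LaurentSeries E) := by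
    rw [HahnSeries.C_apply, coeffMap_single]
    simp
    rfl
  have hhser : (h : LaurentSeries E) = coeffMap (Int.castRingHom E) G := by
    have hq0' : (((q : ℕ) : FE E N) : LaurentSeries E) ≠ 0 := fun h0 => hq0 (Subtype.ext h0)
    have e' : ((g - f ^ q : FE E N) : LaurentSeries E)
        = (h : LaurentSeries E) * (((q : ℕ) : FE E N) : LaurentSeries E) := by
      rw [e]; rfl
    have : (h : LaurentSeries E) * (((q : ℕ) : FE E N) : LaurentSeries E)
        = coeffMap (Int.castRingHom E) G * (((q : ℕ) : FE E N) : LaurentSeries E) := by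
      rw [← e', hser, map_mul, hCq, mul_comm]
    exact mul_right_cancel₀ hq0' this
  have hhV : h ∈ V := mem_of_intSeries hV h G hhser
  rw [e, ValuationSubring.mem_nonunits_iff, map_mul, mul_comm]
  exact mul_lt_one_of_lt_of_le ((V.mem_nonunits_iff).1 (natCast_mem_nonunits hV hP))
    ((V.valuation_le_one_iff _).2 hhV)

end Fermat.Agent.S36.H878
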