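import Fermat.Agent.Lib.Haupt.Member

/-!
# The Hauptmodul `t₄` of `Γ₀(4)` (helper878, S36 cell REG: elliptic points, all odd `q`)

`t₄ = η(z)⁸/η(4z)⁸ = t⁻¹ ∏ (1 - tⁿ)⁸/(1 - t⁴ⁿ)⁸`, obtained here WITHOUT any new modular input from
helper637's level-2 relations (`Lib/Haupt`):

  `t₄ := (t₂(t²) - 16 t₂) / (t₂ + 16)`,      `t₂ = Δ(t)/Δ(t²)`.

* `t4_sq`      : `t₄² = t₂ (t₄ + 16)`;
* `t2e_eq`     : `t₂(t²) = t₄ (t₄ + 16)`;
* `jq_mul_t4`  : `j · t₄⁴ (t₄ + 16) = (t₄² + 256 t₄ + 4096)³`;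
* `jq_sub_1728_mul_t4` : `(j - 1728) · t₄⁴ (t₄ + 16) = (t₄ + 32)² (t₄² - 512 t₄ - 8192)²`;
* `t4_mul_cofactor`, `t4_add_mul_cofactor` : `t₄ ∣ 2³⁶` and `t₄ + 16 ∣ 2²⁴` in `ℤ[j, t₄]`
  (so `t₄`, `t₄ + 16` are units of every chart on which `2` is invertible);
* `t4_mem_fullC`, `t4_mem_full` : `t₄ ∈ K(j_d : d ∣ M)` for `4 ∣ M`;
* `coeffMap_t4` : compatibility with change of coefficients.

`X₀(4)` has no elliptic points, and `t₄` is a local coordinate at every non-cuspidal point of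
`X₀(4 M')` in every odd characteristic: see `Theta4.lean` for `(θ t₄)⁶ = Δ t₄² (t₄ + 16)⁵`.
-/

set_option autoImplicit false

noncomputable section

namespace Fermat.Agent.S36.H878

open PowerSeries ModularCurve Fermat.Agent.Lib.Haupt

/-! ## Integral power series -/

/-- `X² · t₂(X²)`. -/
abbrev T2e : PowerSeries ℤ := ex 2 T2

theorem constantCoeff_T2e : constantCoeff T2e = 1 := by
  rw [T2e, constantCoeff_ex, constantCoeff_T2]


/-- `j(X²) · (X² t₂(X²))² = (X² t₂(X²) + 256 X²)³`. -/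
theorem T2e_rel : ex 2 ModularCurve.jNum * T2e ^ 2 = (T2e + C 256 * X ^ 2) ^ 3 := by
  have h := congrArg (ex 2) T2_rel₁
  simp only [ex, map_mul, map_pow, map_add, PowerSeries.expand_X, PowerSeries.expand_C] at h
  exact h

theorem T2_mul_T2e_sub_ne_zero : T2 * T2e - C 4096 * X ^ 3 ≠ 0 := by
  intro h
  have := congrArg constantCoeff h
  simp [constantCoeff_T2] at this

/-- The modular equation of `X₀(4)` in terms of `t₂`, `t₂(t²)`:
`B² = (A² + 48 A X) B + 4096 A X³`, `A = X t₂`, `B = X² t₂(X²)`. -/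
theorem T2_T2e_rel :
    T2e ^ 2 = (T2 ^ 2 + C 48 * (X * T2)) * T2e + C 4096 * (X ^ 3 * T2) := by
  have h1 := T2_rel₂
  have h2 := T2e_rel
  have e16 : (C (16 : ℤ) : PowerSeries ℤ) = 16 := map_ofNat C 16
  have e48 : (C (48 : ℤ) : PowerSeries ℤ) = 48 := map_ofNat C 48
  have e256 : (C (256 : ℤ) : PowerSeries ℤ) = 256 := map_ofNat C 256
  have e4096 : (C (4096 : ℤ) : PowerSeries ℤ) = 4096 := map_ofNat C 4096
  rw [e16] at h1
  rw [e256] at h2
  rw [e48, e4096]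
  have hne := T2_mul_T2e_sub_ne_zero
  rw [e4096] at hne
  have key : (T2 * T2e - 4096 * X ^ 3) *
      (T2e ^ 2 - ((T2 ^ 2 + 48 * (X * T2)) * T2e + 4096 * (X ^ 3 * T2))) = 0 := by
    linear_combination T2e ^ 2 * h1 - T2 * h2
  rcases mul_eq_zero.1 key with h | h
  · exact absurd h hne
  · exact sub_eq_zero.1 h

/-- `X · t₄`, an integral power series with constant coefficient `1`. -/
def T4 : PowerSeries ℤ := (T2e - C 16 * (X * T2)) * (T2 + C 16 * X).invOfUnit 1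

theorem constantCoeff_T2_add : constantCoeff (T2 + C 16 * X) = 1 := by
  simp [constantCoeff_T2]

theorem T4_mul : T4 * (T2 + C 16 * X) = T2e - C 16 * (X * T2) := by
  have hu : (T2 + C 16 * X) * (T2 + C 16 * X).invOfUnit 1 = 1 :=
    PowerSeries.mul_invOfUnit _ _ (by rw [constantCoeff_T2_add]; rfl)
  rw [T4]
  linear_combination (T2e - C 16 * (X * T2)) * hu

theorem T2_add_ne_zero : T2 + C 16 * X ≠ 0 := fun h => by
  have := constantCoeff_T2_add; rw [h, map_zero] at this; exact zero_ne_one this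

theorem constantCoeff_T4 : constantCoeff T4 = 1 := by
  have h := congrArg constantCoeff T4_mul
  simpa [constantCoeff_T2, constantCoeff_T2e] using h

/-- `t₄² = t₂ (t₄ + 16)`. -/
theorem T4_sq : T4 ^ 2 = T2 * (T4 + C 16 * X) := by
  have h := T4_mul
  have hr := T2_T2e_rel
  have e16 : (C (16 : ℤ) : PowerSeries ℤ) = 16 := map_ofNat C 16
  have e48 : (C (48 : ℤ) : PowerSeries ℤ) = 48 := map_ofNat C 48
  have e4096 : (C (4096 : ℤ) : PowerSeries ℤ) = 4096 := map_ofNat C 4096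
  rw [e16] at h ⊢
  rw [e48, e4096] at hr
  have hne := T2_add_ne_zero
  rw [e16] at hne
  apply mul_right_cancel₀ (pow_ne_zero 2 hne)
  linear_combination (T4 * (T2 + 16 * X) + T2e - 16 * (X * T2) - T2 * (T2 + 16 * X)) * h + hr

/-- `t₂(t²) = t₄ (t₄ + 16)`. -/
theorem T2e_eq : T2e = T4 * (T4 + C 16 * X) := by
  have h := T4_mul
  have hs := T4_sq
  linear_combination -hs - h

/-- `j · t₄⁴ (t₄ + 16) = (t₄² + 256 t₄ + 4096)³`. -/
theorem T4_rel :
    ModularCurve.jNum * (T4 ^ 4 * (T4 + C 16 * X))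
      = (T4 ^ 2 + C 256 * (X * T4) + C 4096 * X ^ 2) ^ 3 := by
  have h1 := T2_rel₁
  have hs := T4_sq
  have e16 : (C (16 : ℤ) : PowerSeries ℤ) = 16 := map_ofNat C 16
  have e256 : (C (256 : ℤ) : PowerSeries ℤ) = 256 := map_ofNat C 256
  have e4096 : (C (4096 : ℤ) : PowerSeries ℤ) = 4096 := map_ofNat C 4096
  rw [e16] at hs ⊢
  rw [e256] at h1 ⊢
  rw [e4096]
  have e : T4 ^ 2 + 256 * (X * T4) + 4096 * X ^ 2 = (T2 + 256 * X) * (T4 + 16 * X) := by
    linear_combination hs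
  rw [e]
  linear_combination (ModularCurve.jNum * (T4 + 16 * X) * (T4 ^ 2 + T2 * (T4 + 16 * X))) * hs
    + (T4 + 16 * X) ^ 3 * h1


/-! ## Laurent series over an arbitrary commutative ring -/

section Laurent

variable (K : Type*) [CommRing K]

/-- The Hauptmodul of `Γ₀(4)`: `t₄ = η(z)⁸/η(4z)⁸ = t⁻¹ - 8 + 20 t - 62 t³ + …`. -/
def t4 : LaurentSeries K := qinv K * lau K T4

theorem t4_add_const (c : ℤ) :
    t4 K + (c : LaurentSeries K) = qinv K * lau K (T4 + PowerSeries.C c * X) := by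
  rw [t4, t_add_const]

theorem t4_add_16 : t4 K + 16 = qinv K * lau K (T4 + PowerSeries.C 16 * X) := by
  rw [← t4_add_const]; simp

theorem t2_add_16 : t2 K + 16 = qinv K * lau K (T2 + PowerSeries.C 16 * X) := by
  rw [← t_add_const, t2]; simp

theorem qExpand_t2 : qExpand K 2 (t2 K) = qinv K ^ 2 * lau K T2e := by
  rw [t2, map_mul, qExpand_qinv, qExpand_lau]

/-- `t₄² = t₂ (t₄ + 16)`. -/
theorem t4_sq : t4 K ^ 2 = t2 K * (t4 K + 16) := by
  have h := congrArg (fun f => qinv K ^ 2 * lau K f) T4_sq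
  simp only [lau_mul, lau_pow] at h
  rw [t4_add_16, t4, t2]
  linear_combination h

/-- `t₂(t²) = t₄ (t₄ + 16)`. -/
theorem t2e_eq : qExpand K 2 (t2 K) = t4 K * (t4 K + 16) := by
  have h := congrArg (fun f => qinv K ^ 2 * lau K f) T2e_eq
  simp only [lau_mul] at h
  rw [qExpand_t2, t4_add_16, t4]
  linear_combination h

/-- `t₄ (t₂ + 16) = t₂(t²) - 16 t₂`: the definition of `t₄`. -/
theorem t4_mul : t4 K * (t2 K + 16) = qExpand K 2 (t2 K) - 16 * t2 K := by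
  have h1 := t4_sq K
  have h2 := t2e_eq K
  linear_combination -h1 - h2

theorem t4_quad : t4 K ^ 2 + 256 * t4 K + 4096 = (t2 K + 256) * (t4 K + 16) := by
  linear_combination t4_sq K

/-- `j · t₄⁴ (t₄ + 16) = (t₄² + 256 t₄ + 4096)³`. -/
theorem jq_mul_t4 :
    jqModC K * (t4 K ^ 4 * (t4 K + 16)) = (t4 K ^ 2 + 256 * t4 K + 4096) ^ 3 := by
  have h1 := jq_mul_t2_sq K
  have hs := t4_sq K
  rw [t4_quad]
  linear_combination (jqModC K * (t4 K + 16) * (t4 K ^ 2 + t2 K * (t4 K + 16))) * hs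
    + (t4 K + 16) ^ 3 * h1

theorem t4_add_32_sq : (t4 K + 32) ^ 2 = (t2 K + 64) * (t4 K + 16) := by
  linear_combination t4_sq K

theorem t4_quad' : t4 K ^ 2 - 512 * t4 K - 8192 = (t2 K - 512) * (t4 K + 16) := by
  linear_combination t4_sq K

/-- `(j - 1728) · t₄⁴ (t₄ + 16) = (t₄ + 32)² (t₄² - 512 t₄ - 8192)²`. -/
theorem jq_sub_1728_mul_t4 :
    (jqModC K - 1728) * (t4 K ^ 4 * (t4 K + 16))
      = (t4 K + 32) ^ 2 * (t4 K ^ 2 - 512 * t4 K - 8192) ^ 2 := by
  have h1 := jq_sub_1728_mul_t2_sq K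
  have hs := t4_sq K
  rw [t4_add_32_sq, t4_quad']
  linear_combination ((jqModC K - 1728) * (t4 K + 16) * (t4 K ^ 2 + t2 K * (t4 K + 16))) * hs
    + (t4 K + 16) ^ 3 * h1

/-- `t₄` is a root of the monic sextic `(T² + 256 T + 4096)³ - j T⁴ (T + 16)` over `ℤ[j]`. -/
theorem t4_sextic :
    (t4 K ^ 2 + 256 * t4 K + 4096) ^ 3 - jqModC K * (t4 K ^ 4 * (t4 K + 16)) = 0 := by
  rw [jq_mul_t4, sub_self]

/-- `t₄ ∣ 2³⁶` in `ℤ[j, t₄]`. -/
theorem t4_mul_cofactor :
    t4 K * (jqModC K * (t4 K ^ 3 * (t4 K + 16))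
      - (t4 K ^ 5 + 768 * t4 K ^ 4 + 208896 * t4 K ^ 3 + 23068672 * t4 K ^ 2
        + 855638016 * t4 K + 12884901888)) = 2 ^ 36 := by
  linear_combination jq_mul_t4 K

/-- `t₄ + 16 ∣ 2²⁴` in `ℤ[j, t₄]`. -/
theorem t4_add_mul_cofactor :
    (t4 K + 16) * (jqModC K * t4 K ^ 4
      - ((t4 K + 16) ^ 5 + 672 * (t4 K + 16) ^ 4 + 151296 * (t4 K + 16) ^ 3
        + 11583488 * (t4 K + 16) ^ 2 + 38731776 * (t4 K + 16) + 44040192)) = 2 ^ 24 := by
  linear_combination jq_mul_t4 K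


/-! ### Basic properties -/

variable {K}

/-- `t₄` is compatible with every change of coefficients (base change, reduction mod `ℓ`). -/
theorem coeffMap_t4 {K' : Type*} [CommRing K'] (φ : K →+* K') :
    coeffMap φ (t4 K) = t4 K' := by
  rw [t4, map_mul, coeffMap_qinv, coeffMap_lau, t4]

variable (K)

/-- `t₄ = t⁻¹ + …`. -/
theorem coeff_t4_neg_one : (t4 K).coeff (-1) = 1 := by
  rw [t4, coeff_qinv_mul_lau, show (-1 : ℤ) + 1 = ((0 : ℕ) : ℤ) by norm_num, coeff_lau_natCast,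
    PowerSeries.coeff_zero_eq_constantCoeff, constantCoeff_T4, Int.cast_one]

theorem coeff_t4_of_lt {k : ℤ} (hk : k < -1) : (t4 K).coeff k = 0 := by
  rw [t4, coeff_qinv_mul_lau, coeff_lau_of_neg K _ (by omega)]

theorem t4_ne_zero [Nontrivial K] : t4 K ≠ 0 := fun h => by
  have := coeff_t4_neg_one K
  rw [h] at this
  simp at this

theorem coeff_t2_add_neg_one (c : ℤ) : (t2 K + (c : LaurentSeries K)).coeff (-1) = 1 := by
  rw [t2, t_add_const, coeff_qinv_mul_lau, show (-1 : ℤ) + 1 = ((0 : ℕ) : ℤ) by norm_num,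
    coeff_lau_natCast, PowerSeries.coeff_zero_eq_constantCoeff]
  simp [constantCoeff_T2]

theorem coeff_t4_add_neg_one (c : ℤ) : (t4 K + (c : LaurentSeries K)).coeff (-1) = 1 := by
  rw [t4_add_const, coeff_qinv_mul_lau, show (-1 : ℤ) + 1 = ((0 : ℕ) : ℤ) by norm_num,
    coeff_lau_natCast, PowerSeries.coeff_zero_eq_constantCoeff]
  simp [constantCoeff_T4]

theorem t2_add_ne_zero [Nontrivial K] (c : ℤ) : t2 K + (c : LaurentSeries K) ≠ 0 := fun h => by
  have := coeff_t2_add_neg_one K c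
  rw [h] at this
  simp at this

theorem t4_add_ne_zero [Nontrivial K] (c : ℤ) : t4 K + (c : LaurentSeries K) ≠ 0 := fun h => by
  have := coeff_t4_add_neg_one K c
  rw [h] at this
  simp at this

end Laurent

/-! ## Membership in the function field of `X₀(M)`, `4 ∣ M` -/

section Field

variable (K : Type*) [Field K]

theorem fullC_le_of_dvd {N M : ℕ} (h : N ∣ M) :
    modularFunctionFieldFullC K N ≤ modularFunctionFieldFullC K M := by
  rw [modularFunctionFieldFullC, IntermediateField.adjoin_le_iff]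
  rintro x ⟨d, hne, hdvd, rfl⟩
  exact @jqModCd_mem_full K _ M d hne (hdvd.trans h)

theorem qExpand_t2_mem_fullC (M : ℕ) (h4 : 4 ∣ M) :
    qExpand K 2 (t2 K) ∈ modularFunctionFieldFullC K M := by
  have h2 : t2 K ∈ modularFunctionFieldFullC K 2 := t2_mem_fullC K 2 dvd_rfl
  have h := full_degeneracyC_map_le K 2 2
    ((IntermediateField.mem_map _).2 ⟨t2 K, h2, rfl⟩)
  rw [qExpandAlgHomC_apply] at h
  exact fullC_le_of_dvd K (N := 2 * 2) (M := M) (by simpa using h4) h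

/-- **`t₄ ∈ K(j_d : d ∣ M)` for `4 ∣ M`**, over every field `K`. -/
theorem t4_mem_fullC (M : ℕ) (h4 : 4 ∣ M) : t4 K ∈ modularFunctionFieldFullC K M := by
  have h2 : t2 K ∈ modularFunctionFieldFullC K M :=
    t2_mem_fullC K M ((by norm_num : (2 : ℕ) ∣ 4).trans h4)
  have h2e := qExpand_t2_mem_fullC K M h4
  have hne : t2 K + 16 ≠ 0 := by
    have := t2_add_ne_zero K 16
    simpa using this
  have h : t4 K = (qExpand K 2 (t2 K) - 16 * t2 K) / (t2 K + 16) := by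
    rw [eq_div_iff hne]
    exact t4_mul K
  rw [h]
  exact div_mem (sub_mem h2e (mul_mem (ofNat_mem _ 16) h2)) (add_mem h2 (ofNat_mem _ 16))

end Field

/-- `t₄ ∈ ℚ(j_d : d ∣ M)` for `4 ∣ M`. -/
theorem t4_mem_full (M : ℕ) (h4 : 4 ∣ M) : t4 ℚ ∈ modularFunctionFieldFull M :=
  t4_mem_fullC ℚ M h4

/-- `t₄ ∈ L(j_d : d ∣ M)` for `4 ∣ M`, in the base-changed function field. -/
theorem t4_mem_laurentBaseChange (L : Type*) [Field L] [Algebra ℚ L] (M : ℕ) (h4 : 4 ∣ M) :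
    t4 L ∈ laurentBaseChange L (modularFunctionFieldFull M) := by
  have h := coeffEmb_mem_laurentBaseChange L (t4_mem_full M h4)
  rwa [coeffEmb, coeffMap_t4] at h


end Fermat.Agent.S36.H878
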