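import Fermat.Agent.S36.H878.GaussUnit
import Fermat.Agent.S36.H878.Haupt4
import Fermat.Agent.S36.H878.Congr4

/-!
# The middle component: `γ(h) ≡ α(h)` modulo `𝔪_mid` (helper878, S36 cell REG / `LeafReg`)

Levels `M q` and `M q q`; `α, β : F_{Mq} → F_{Mqq}`; `V₁' = V∞(M q)`, `V₂' = V₁' ∘ W'`
(`W'` the Fricke involution of level `M q`), `V₂` the middle valuation ring of level `M q q`:
`V₂ ∘ α = V₁'`, `V₂ ∘ β = V₂'`.

**Frobenius trick.**  For `d ∣ M`: `j_{dq} ≡ j_d ^ q` in `V₁'` (Frobenius congruence of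
`t`-expansions) and, applying `W'`, `j_{dq} ^ q ≡ j_d` in `V₂'`.  Pulling back by `α` resp. `β`:
`j_{dq} ≡ j_d ^ q` and `j_{dqq} ^ q ≡ j_{dq}` in `V₂`, hence `(j_{dqq} - j_d) ^ q ∈ 𝔪_{V₂}` and

  `j_{dqq} - j_d ∈ 𝔪_{V₂}`        (`jE_congr_mid`).

With `Congr4.t4_congr` (`t₄ ∈ ℚ(j, j₂, j₄)` with Gauss-unit denominators):

  `γ(t₄) - t₄ ∈ 𝔪_{V₂}`           (`t4_congr_mid`),   `4 ∣ M`.
-/

set_option autoImplicit false
set_option linter.unusedSectionVars false
set_option linter.style.haveILetI false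
set_option synthInstance.maxHeartbeats 400000
set_option maxHeartbeats 1600000

noncomputable section

namespace Fermat.Agent.S36.H878

open ModularCurve HahnSeries Fermat.Agent.A2 Fermat.Agent.A2.Mod

/-! ## Abstract: the Frobenius trick -/

/-- `x ∈ (V ∘ φ).nonunits ↔ φ x ∈ V.nonunits`. -/
theorem mem_nonunits_comap_iff {K K' : Type*} [Field K] [Field K'] (φ : K →+* K')
    (V : ValuationSubring K') (x : K) : x ∈ (V.comap φ).nonunits ↔ φ x ∈ V.nonunits := by
  by_cases hx0 : x = 0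
  · rw [hx0, map_zero]
    constructor <;> intro _ <;>
      (rw [ValuationSubring.mem_nonunits_iff, map_zero]; exact zero_lt_one)
  · have hφ0 : φ x ≠ 0 := (map_ne_zero φ).2 hx0
    rw [mem_nonunits_iff_inv_not_mem _ hx0, mem_nonunits_iff_inv_not_mem V hφ0,
      ValuationSubring.mem_comap, map_inv₀]

/-- If `x ^ n` is a non-unit (`n > 0`... any `n`), so is `x`, for `x ∈ V`. -/
theorem mem_nonunits_of_pow {K : Type*} [Field K] (V : ValuationSubring K) {x : K} (n : ℕ)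
    (hx : x ^ n ∈ V.nonunits) : x ∈ V.nonunits := by
  rw [ValuationSubring.mem_nonunits_iff] at hx ⊢
  rw [map_pow] at hx
  by_contra h
  rw [not_lt] at h
  exact absurd hx (not_lt.2 (one_le_pow₀ h))

/-- **Frobenius trick**: `b ≡ a ^ q` and `c ^ q ≡ b` modulo `𝔪_V`, `q ∈ 𝔪_V` prime
`⟹ c ≡ a` modulo `𝔪_V`. -/
theorem frob_trick {K : Type*} [Field K] (V : ValuationSubring K) {q : ℕ} (hq : q.Prime)
    (hqV : ((q : ℕ) : K) ∈ V.nonunits) {a b c : K} (ha : a ∈ V) (hc : c ∈ V)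
    (h1 : b - a ^ q ∈ V.nonunits) (h2 : c ^ q - b ∈ V.nonunits) : c - a ∈ V.nonunits := by
  apply mem_nonunits_of_pow V q
  obtain ⟨r, hr⟩ := exists_add_pow_prime_eq hq (⟨c - a, sub_mem hc ha⟩ : V) ⟨a, ha⟩
  have hr' : (c - a + a) ^ q = (c - a) ^ q + a ^ q + (q : K) * ((c - a) * a * (r : K)) := by
    have := congrArg (fun t : V => (t : K)) hr
    push_cast at this
    rw [this]
    ring
  rw [sub_add_cancel] at hr'
  have e : (c - a) ^ q = (c ^ q - b) + (b - a ^ q) - (q : K) * ((c - a) * a * (r : K)) := by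
    rw [hr']; ring
  rw [e]
  have hm : (q : K) * ((c - a) * a * (r : K)) ∈ V.nonunits := by
    rw [mul_comm]
    exact mul_mem_nonunits_of_mem V (mul_mem (mul_mem (sub_mem hc ha) ha) r.2) hqV
  -- the non-units form an ideal
  rw [ValuationSubring.mem_nonunits_iff] at h1 h2 hm ⊢
  refine lt_of_le_of_lt (Valuation.map_sub _ _ _) (max_lt ?_ hm)
  exact lt_of_le_of_lt (Valuation.map_add _ _ _) (max_lt h2 h1)

/-! ## The generators `j_d` -/

section Gen

variable {P : ValuationSubring Qb} {E : IntermediateField ℚ Qb}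

/-- The `t`-expansion of `j_d` is the integer series `j(t^d)`. -/
theorem coe_jE_intSeries (N d : ℕ) [NeZero d] (hd : d ∣ N) :
    ((jE E N d hd : FE E N) : LaurentSeries E)
      = coeffMap (Int.castRingHom E) (qExpand ℤ d (jqModC ℤ)) := by
  show coeffEmb E (qExpand ℚ d jq) = _
  rw [coeffEmb, coeffMap_qExpand, coeffMap_qExpand, ← jqModC_rat, coeffMap_jqModC,
    coeffMap_jqModC]

/-- `j_d ∈ V∞`. -/
theorem jE_mem_vinf {N : ℕ} {V : ValuationSubring (FE E N)} (hV : IsVinf P E N V)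
    (d : ℕ) [NeZero d] (hd : d ∣ N) : jE E N d hd ∈ V :=
  mem_of_intSeries hV _ _ (coe_jE_intSeries N d hd)

/-- **Frobenius congruence on `V∞`**: `j_{dq} ≡ j_d ^ q`. -/
theorem jE_frob_inf {N : ℕ} {V : ValuationSubring (FE E N)} (hV : IsVinf P E N V)
    {q : ℕ} (hq : q.Prime) [NeZero q] (hP : P.LiesOverPrime q)
    (d : ℕ) [NeZero d] [NeZero (d * q)] (hd : d ∣ N) (hdq : d * q ∣ N) :
    jE E N (d * q) hdq - jE E N d hd ^ q ∈ V.nonunits := by
  refine frob_mem_nonunits hV hq hP (jE E N d hd) (jE E N (d * q) hdq)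
    (qExpand ℤ d (jqModC ℤ)) (coe_jE_intSeries N d hd) ?_
  rw [coe_jE_intSeries, ← coeffMap_qExpand, qExpand_qExpand]
  congr 1
  exact qExpand_congr (mul_comm d q) _

/-- **Frobenius congruence on `V₀ = V∞ ∘ W`**: `j_{dq} ^ q ≡ j_d`. -/
theorem jE_frob_zero {N : ℕ} {V V₀ : ValuationSubring (FE E N)} (hV : IsVinf P E N V)
    (W : FE E N ≃ₐ[E] FE E N) (hW : IsFricke E N W)
    (hV₀ : V₀ = V.comap (W : FE E N →+* FE E N))
    {q : ℕ} (hq : q.Prime) [NeZero q] (hP : P.LiesOverPrime q)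
    (d d' : ℕ) [NeZero d] [NeZero d'] [NeZero (d * q)] [NeZero (d' * q)]
    (hd : d ∣ N) (hdq : d * q ∣ N) (hd' : d' ∣ N) (hdq' : d' * q ∣ N) (hdd : d * d' * q = N) :
    jE E N (d * q) hdq ^ q - jE E N d hd ∈ V₀.nonunits := by
  rw [hV₀, mem_nonunits_comap_iff]
  have h1 : W (jE E N (d * q) hdq) = jE E N d' hd' :=
    hW.1 (d * q) d' hdq hd' (by rw [← hdd]; ring)
  have h2 : W (jE E N d hd) = jE E N (d' * q) hdq' :=
    hW.1 d (d' * q) hd hdq' (by rw [← hdd]; ring)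
  have e : (W : FE E N →+* FE E N) (jE E N (d * q) hdq ^ q - jE E N d hd)
      = -(jE E N (d' * q) hdq' - jE E N d' hd' ^ q) := by
    show W (jE E N (d * q) hdq ^ q - jE E N d hd) = _
    rw [map_sub, map_pow, h1, h2]
    ring
  rw [e]
  have := jE_frob_inf hV hq hP d' hd' hdq'
  rw [ValuationSubring.mem_nonunits_iff] at this ⊢
  rwa [Valuation.map_neg]

/-- `j_d ∈ V₀ = V∞ ∘ W`. -/
theorem jE_mem_vzero {N : ℕ} {V V₀ : ValuationSubring (FE E N)} (hV : IsVinf P E N V)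
    (W : FE E N ≃ₐ[E] FE E N) (hW : IsFricke E N W)
    (hV₀ : V₀ = V.comap (W : FE E N →+* FE E N))
    (d d' : ℕ) [NeZero d] [NeZero d'] (hd : d ∣ N) (hd' : d' ∣ N) (hdd : d * d' = N) :
    jE E N d hd ∈ V₀ := by
  rw [hV₀, ValuationSubring.mem_comap]
  show W (jE E N d hd) ∈ V
  rw [hW.1 d d' hd hd' hdd]
  exact jE_mem_vinf hV d' hd'

end Gen

/-! ## The middle valuation ring -/

section Mid

variable (P : ValuationSubring Qb) (E : IntermediateField ℚ Qb) (M q : ℕ)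
  [NeZero M] [NeZero q] [NeZero (M * q)]

/-- The data of the middle valuation ring `V₂` of level `M q q` used here (unbundled from
`Mod3.Std`, `Mod3.Objs` and the fields `comap_α₂`, `comap_β₂` of `Mod3.PartTable`). -/
structure MidData (V₁' V₂' : ValuationSubring (FE E (M * q)))
    (V₂ : ValuationSubring (FE E (M * q * q)))
    (W' : FE E (M * q) ≃ₐ[E] FE E (M * q)) : Prop where
  q_prime : q.Prime
  lies_over : P.LiesOverPrime q
  vinf' : IsVinf P E (M * q) V₁'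
  fricke' : IsFricke E (M * q) W'
  vzero' : V₂' = V₁'.comap (W' : FE E (M * q) →+* FE E (M * q))
  comap_α : V₂.comap (αE E (M * q) q : FE E (M * q) →+* FE E (M * q * q)) = V₁'
  comap_β : V₂.comap (βE E (M * q) q : FE E (M * q) →+* FE E (M * q * q)) = V₂'

variable {P E M q}

theorem alpha_jE' (d : ℕ) [NeZero d] (hd : d ∣ M * q) :
    αE E (M * q) q (jE E (M * q) d hd) = jE E (M * q * q) d (hd.trans (dvd_mul_right _ q)) :=
  Subtype.ext rfl

theorem beta_jE' (d : ℕ) [NeZero d] [NeZero (d * q)] (hd : d ∣ M * q) :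
    βE E (M * q) q (jE E (M * q) d hd) = jE E (M * q * q) (d * q) (mul_dvd_mul_right hd q) := by
  apply Subtype.ext
  show qExpand (↥E) q (coeffEmb (↥E) (qExpand ℚ d jq)) = coeffEmb (↥E) (qExpand ℚ (d * q) jq)
  rw [coeffEmb, ← coeffMap_qExpand, qExpand_qExpand]
  congr 1
  exact qExpand_congr (mul_comm q d) jq

theorem alpha_jE_M (d : ℕ) [NeZero d] (hd : d ∣ M) :
    αE E M q (jE E M d hd) = jE E (M * q) d (hd.trans (dvd_mul_right M q)) :=
  Subtype.ext rfl

theorem beta_jE_M (d : ℕ) [NeZero d] [NeZero (d * q)] (hd : d ∣ M) :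
    βE E M q (jE E M d hd) = jE E (M * q) (d * q) (mul_dvd_mul_right hd q) := by
  apply Subtype.ext
  show qExpand (↥E) q (coeffEmb (↥E) (qExpand ℚ d jq)) = coeffEmb (↥E) (qExpand ℚ (d * q) jq)
  rw [coeffEmb, ← coeffMap_qExpand, qExpand_qExpand]
  congr 1
  exact qExpand_congr (mul_comm q d) jq

variable {V₁' V₂' : ValuationSubring (FE E (M * q))} {V₂ : ValuationSubring (FE E (M * q * q))}
  {W' : FE E (M * q) ≃ₐ[E] FE E (M * q)}

/-- `q ∈ 𝔪_{V₂}`. -/
theorem MidData.natCast_mem (D : MidData P E M q V₁' V₂' V₂ W') :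
    ((q : ℕ) : FE E (M * q * q)) ∈ V₂.nonunits := by
  have h := map_mem_nonunits_of_comap _ V₂ V₁' D.comap_α
    (natCast_mem_nonunits D.vinf' D.lies_over)
  rwa [map_natCast] at h

/-- Images under `α` of Gauss units of level `M q` are units of `V₂`. -/
theorem MidData.valuation_alpha_eq_one (D : MidData P E M q V₁' V₂' V₂ W')
    (f' : FE E (M * q)) (Z : LaurentSeries ℤ)
    (hf : (f' : LaurentSeries E) = coeffMap (Int.castRingHom E) Z)
    (hZ : coeffMap (Int.castRingHom (IsLocalRing.ResidueField (RE P E))) Z ≠ 0) :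
    V₂.valuation (αE E (M * q) q f') = 1 := by
  obtain ⟨h0, h1, h2⟩ := map_unit_of_comap _ V₂ V₁' D.comap_α
    (unitAt_of_intSeries D.vinf' f' Z hf hZ)
  have a1 : V₂.valuation (αE E (M * q) q f') ≤ 1 := (V₂.valuation_le_one_iff _).2 h1
  have a2 : V₂.valuation (αE E (M * q) q f')⁻¹ ≤ 1 := (V₂.valuation_le_one_iff _).2 h2
  rw [map_inv₀] at a2
  have hv : 0 < V₂.valuation (αE E (M * q) q f') :=
    zero_lt_iff.2 ((Valuation.ne_zero_iff _).2 h0)
  exact le_antisymm a1 ((inv_le_one₀ hv).1 a2)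

/-- Images under `α` of elements of level `M q` with integer expansion lie in `V₂`. -/
theorem MidData.alpha_mem (D : MidData P E M q V₁' V₂' V₂ W')
    (f' : FE E (M * q)) (Z : LaurentSeries ℤ)
    (hf : (f' : LaurentSeries E) = coeffMap (Int.castRingHom E) Z) :
    αE E (M * q) q f' ∈ V₂ := by
  have h := mem_of_intSeries D.vinf' f' Z hf
  rw [← D.comap_α, ValuationSubring.mem_comap] at h
  exact h

/-- **`j_{dqq} ≡ j_d` modulo `𝔪_{V₂}`** for `d ∣ M` (`d d' = M`). -/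
theorem MidData.jE_congr (D : MidData P E M q V₁' V₂' V₂ W')
    (d d' : ℕ) [NeZero d] [NeZero d'] [NeZero (d * q * q)] (hdd : d * d' = M) :
    jE E (M * q * q) d (⟨d' * q * q, by rw [← hdd]; ring⟩) ∈ V₂ ∧
    jE E (M * q * q) (d * q * q) (⟨d', by rw [← hdd]; ring⟩) ∈ V₂ ∧
    jE E (M * q * q) (d * q * q) (⟨d', by rw [← hdd]; ring⟩)
      - jE E (M * q * q) d (⟨d' * q * q, by rw [← hdd]; ring⟩) ∈ V₂.nonunits := by
  have hq0 : q ≠ 0 := NeZero.ne q
  haveI : NeZero (d * q) := ⟨mul_ne_zero (NeZero.ne d) hq0⟩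
  haveI : NeZero (d' * q) := ⟨mul_ne_zero (NeZero.ne d') hq0⟩
  have hd : d ∣ M * q := ⟨d' * q, by rw [← hdd]; ring⟩
  have hdq : d * q ∣ M * q := ⟨d', by rw [← hdd]; ring⟩
  have hd' : d' ∣ M * q := ⟨d * q, by rw [← hdd]; ring⟩
  have hdq' : d' * q ∣ M * q := ⟨d, by rw [← hdd]; ring⟩
  -- the three elements
  have ea : jE E (M * q * q) d (⟨d' * q * q, by rw [← hdd]; ring⟩)
      = αE E (M * q) q (jE E (M * q) d hd) := (alpha_jE' d hd).symm
  have eb₁ : jE E (M * q * q) (d * q) (⟨d' * q, by rw [← hdd]; ring⟩)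
      = αE E (M * q) q (jE E (M * q) (d * q) hdq) := (alpha_jE' (d * q) hdq).symm
  have eb₂ : jE E (M * q * q) (d * q) (⟨d' * q, by rw [← hdd]; ring⟩)
      = βE E (M * q) q (jE E (M * q) d hd) := (beta_jE' d hd).symm
  have ec : jE E (M * q * q) (d * q * q) (⟨d', by rw [← hdd]; ring⟩)
      = βE E (M * q) q (jE E (M * q) (d * q) hdq) := (beta_jE' (d * q) hdq).symm
  have ha : jE E (M * q * q) d (⟨d' * q * q, by rw [← hdd]; ring⟩) ∈ V₂ := by
    rw [ea]
    exact D.alpha_mem _ _ (coe_jE_intSeries _ d hd)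
  have hc : jE E (M * q * q) (d * q * q) (⟨d', by rw [← hdd]; ring⟩) ∈ V₂ := by
    rw [ec]
    have h := jE_mem_vzero D.vinf' W' D.fricke' D.vzero' (d * q) d' hdq hd'
      (by rw [← hdd]; ring)
    rw [← D.comap_β, ValuationSubring.mem_comap] at h
    exact h
  refine ⟨ha, hc, ?_⟩
  refine frob_trick V₂ D.q_prime D.natCast_mem ha hc
    (b := jE E (M * q * q) (d * q) (⟨d' * q, by rw [← hdd]; ring⟩)) ?_ ?_
  · have h := map_mem_nonunits_of_comap _ V₂ V₁' D.comap_α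
      (jE_frob_inf D.vinf' D.q_prime D.lies_over d hd hdq)
    rw [map_sub, map_pow] at h
    rw [ea, eb₁]
    exact h
  · have h := map_mem_nonunits_of_comap _ V₂ V₂' D.comap_β
      (jE_frob_zero D.vinf' W' D.fricke' D.vzero' D.q_prime D.lies_over d d' hd hdq hd' hdq'
        (by rw [← hdd]))
    rw [map_sub, map_pow] at h
    rw [ec, eb₂]
    exact h

end Mid

end Fermat.Agent.S36.H878
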