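import Mathlib.RingTheory.Valuation.ValuationSubring
import Mathlib.Tactic.LinearCombination
import Mathlib.Tactic.FieldSimp

/-!
# Transfer of the residue of `x ^ N / U` from `j` to the Hauptmodul `t₄` (helper878, S36 REG / R4)

Mathlib only.  `V` a valuation subring of a field `L` (application: `V = V_mid`), and

* `j₁ = α(j)`, `j₂ = γ(j)`, `h₁ = α(t₄)`, `h₂ = γ(t₄)` (`γ : f(t) ↦ f(t^{q²})`), so that
  `j_i · h_i⁴ (h_i + 16) = (h_i² + 256 h_i + 4096)³` (`Haupt4.jq_mul_t4`);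
* `h₁`, `h₁ + 16`, `j₁`, `j₁ - 1728` units of `V`, `h₂ ∈ V`, `h₂ - h₁ ∈ 𝔪_V`;
* `hres` for `j`: `((j₂ - j₁) ^ (6k) - (j₁⁴ (j₁ - 1728)³) ^ k · U) / U ∈ 𝔪_V`
  (output of `S36.H922.h922_hres_abs`, `6 k = N = 12 (q - 1)`).

Then `hres` holds for `t₄`: `((h₂ - h₁) ^ (6k) - (h₁² (h₁ + 16)⁵) ^ k · U) / U ∈ 𝔪_V`.

Since `h₁² (h₁ + 16)⁵` is a unit of the whole non-cuspidal chart (odd residue characteristic),
`S36.H878.principal_of_unit_self` then applies at EVERY non-cuspidal closed point of the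
component: elliptic points (`j(n) ∈ {0, 1728}`) included, no local-coordinate input.
-/

set_option autoImplicit false

namespace Fermat.Agent.S36.H878

open IsLocalRing

variable {L : Type*} [Field L]

/-- The difference quotient of `J = (X² + 256 X + 4096)³ / (X⁴ (X + 16))`, cleared of
denominators: `P(b)³ D(a) - P(a)³ D(b) = (b - a) · dq4 a b`. -/
def dq4 {S : Type*} [CommRing S] (a b : S) : S :=
  (b + a + 256) * ((b ^ 2 + 256 * b + 4096) ^ 2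
      + (b ^ 2 + 256 * b + 4096) * (a ^ 2 + 256 * a + 4096) + (a ^ 2 + 256 * a + 4096) ^ 2)
    * (a ^ 4 * (a + 16))
  - (a ^ 2 + 256 * a + 4096) ^ 3
    * ((b ^ 3 + b ^ 2 * a + b * a ^ 2 + a ^ 3) * (b + 16) + a ^ 4)

theorem dq4_spec {S : Type*} [CommRing S] (a b : S) :
    (b ^ 2 + 256 * b + 4096) ^ 3 * (a ^ 4 * (a + 16))
      - (a ^ 2 + 256 * a + 4096) ^ 3 * (b ^ 4 * (b + 16)) = (b - a) * dq4 a b := by
  rw [dq4]; ring

theorem dq4_diag {S : Type*} [CommRing S] (a : S) :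
    dq4 a a = (a ^ 2 + 256 * a + 4096) ^ 2 * a ^ 3 * ((a + 32) * (a ^ 2 - 512 * a - 8192)) := by
  rw [dq4]; ring

theorem map_dq4 {S T : Type*} [CommRing S] [CommRing T] (f : S →+* T) (a b : S) :
    f (dq4 a b) = dq4 (f a) (f b) := by
  simp only [dq4, map_sub, map_mul, map_add, map_pow, map_ofNat]

/-- The residue-field identity behind the transfer. -/
theorem res_alg4 {κ : Type*} [Field κ] (a c : κ)
    (hJ : c * (a ^ 4 * (a + 16)) = (a ^ 2 + 256 * a + 4096) ^ 3) :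
    (a ^ 2 * (a + 16) ^ 5)
        * ((a ^ 2 + 256 * a + 4096) ^ 2 * a ^ 3 * ((a + 32) * (a ^ 2 - 512 * a - 8192))) ^ 6
      = (c ^ 4 * (c - 1728) ^ 3) * ((a ^ 4 * (a + 16)) * (a ^ 4 * (a + 16))) ^ 6 := by
  have hJ' : (c - 1728) * (a ^ 4 * (a + 16))
      = (a + 32) ^ 2 * (a ^ 2 - 512 * a - 8192) ^ 2 := by
    linear_combination hJ
  have h4 := congrArg (fun x => x ^ 4) hJ
  have h3 := congrArg (fun x => x ^ 3) hJ'
  beta_reduce at h4 h3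
  generalize a ^ 2 + 256 * a + 4096 = P at *
  generalize a ^ 2 - 512 * a - 8192 = Q at *
  linear_combination (-(((c - 1728) * (a ^ 4 * (a + 16))) ^ 3 * (a ^ 4 * (a + 16)) ^ 5)) * h4
    - ((P ^ 3) ^ 4 * (a ^ 4 * (a + 16)) ^ 5) * h3

/-- **Transfer of `hres` from `j` to `t₄`.** -/
theorem hres_transfer4 (V : ValuationSubring L) (j₁ j₂ h₁ h₂ U : L) (k : ℕ)
    (hJ₁ : j₁ * (h₁ ^ 4 * (h₁ + 16)) = (h₁ ^ 2 + 256 * h₁ + 4096) ^ 3)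
    (hJ₂ : j₂ * (h₂ ^ 4 * (h₂ + 16)) = (h₂ ^ 2 + 256 * h₂ + 4096) ^ 3)
    (hh₁ : V.valuation h₁ = 1) (hh₁' : V.valuation (h₁ + 16) = 1)
    (hj₁ : V.valuation j₁ = 1) (hj₁' : V.valuation (j₁ - 1728) = 1)
    (hh₂ : h₂ ∈ V) (hx : h₂ - h₁ ∈ V.nonunits)
    (hres : ((j₂ - j₁) ^ (6 * k) - (j₁ ^ 4 * (j₁ - 1728) ^ 3) ^ k * U) * U⁻¹ ∈ V.nonunits) :
    ((h₂ - h₁) ^ (6 * k) - (h₁ ^ 2 * (h₁ + 16) ^ 5) ^ k * U) * U⁻¹ ∈ V.nonunits := by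
  classical
  by_cases hU : U = 0
  · -- degenerate: `U⁻¹ = 0`
    rw [hU, inv_zero, mul_zero]
    rw [ValuationSubring.mem_nonunits_iff, map_zero]
    exact zero_lt_one
  -- elements of `V`
  have h₁V : h₁ ∈ V := (V.valuation_le_one_iff _).1 hh₁.le
  have j₁V : j₁ ∈ V := (V.valuation_le_one_iff _).1 hj₁.le
  -- `Yj = (j₂ - j₁)^(6k) / U ∈ V`
  have hYj : (j₂ - j₁) ^ (6 * k) * U⁻¹ - (j₁ ^ 4 * (j₁ - 1728) ^ 3) ^ k ∈ V.nonunits := by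
    have e : (j₂ - j₁) ^ (6 * k) * U⁻¹ - (j₁ ^ 4 * (j₁ - 1728) ^ 3) ^ k
        = ((j₂ - j₁) ^ (6 * k) - (j₁ ^ 4 * (j₁ - 1728) ^ 3) ^ k * U) * U⁻¹ := by
      field_simp
    rw [e]; exact hres
  have hgjV : (j₁ ^ 4 * (j₁ - 1728) ^ 3) ^ k ∈ V :=
    pow_mem (mul_mem (pow_mem j₁V _) (pow_mem (sub_mem j₁V (ofNat_mem V 1728)) _)) _
  have hYjV : (j₂ - j₁) ^ (6 * k) * U⁻¹ ∈ V := by
    have h1 : (j₂ - j₁) ^ (6 * k) * U⁻¹ - (j₁ ^ 4 * (j₁ - 1728) ^ 3) ^ k ∈ V :=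
      (V.valuation_le_one_iff _).1 ((V.mem_nonunits_iff).1 hYj).le
    have := add_mem h1 hgjV
    simpa using this
  generalize hYjL : (j₂ - j₁) ^ (6 * k) * U⁻¹ = YjL at hYj hYjV
  lift h₁ to V using h₁V with a₁
  lift h₂ to V using hh₂ with a₂
  lift j₁ to V using j₁V with c₁
  lift YjL to V using hYjV with Yj
  -- the residue map
  let r : V →+* ResidueField V := residue V
  have hr0 : ∀ a : V, r a = 0 ↔ (a : L) ∈ V.nonunits := fun a => by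
    rw [ValuationSubring.coe_mem_nonunits_iff]
    exact residue_eq_zero_iff a
  have hrne : ∀ a : V, V.valuation (a : L) = 1 → r a ≠ 0 := fun a ha h0 => by
    have := (V.mem_nonunits_iff).1 ((hr0 a).1 h0)
    rw [ha] at this
    exact lt_irrefl _ this
  have hrYj : r Yj = (r c₁ ^ 4 * (r c₁ - 1728) ^ 3) ^ k := by
    have h0 : r (Yj - (c₁ ^ 4 * (c₁ - 1728) ^ 3) ^ k) = 0 := (hr0 _).2 hYj
    have h1 : r (Yj - (c₁ ^ 4 * (c₁ - 1728) ^ 3) ^ k)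
        = r Yj - (r c₁ ^ 4 * (r c₁ - 1728) ^ 3) ^ k := by
      simp only [map_sub, map_mul, map_pow, map_ofNat]
    rw [h1, sub_eq_zero] at h0
    exact h0
  -- `r a₂ = r a₁`
  have hra : r a₂ = r a₁ := by
    have h0 : r (a₂ - a₁) = 0 := (hr0 _).2 hx
    rwa [map_sub, sub_eq_zero] at h0
  -- units
  have hra₁ : r a₁ ≠ 0 := hrne a₁ hh₁
  have hra₁' : r a₁ + 16 ≠ 0 := by
    have := hrne (a₁ + 16) hh₁'
    rwa [map_add, map_ofNat] at this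
  have hrc₁ : r c₁ ≠ 0 := hrne c₁ hj₁
  have hrc₁' : r c₁ - 1728 ≠ 0 := by
    have := hrne (c₁ - 1728) hj₁'
    rwa [map_sub, map_ofNat] at this
  -- the relations in the residue field
  have hJr : r c₁ * (r a₁ ^ 4 * (r a₁ + 16)) = (r a₁ ^ 2 + 256 * r a₁ + 4096) ^ 3 := by
    have h : c₁ * (a₁ ^ 4 * (a₁ + 16)) = (a₁ ^ 2 + 256 * a₁ + 4096) ^ 3 := Subtype.ext hJ₁
    have := congrArg r h
    simpa only [map_mul, map_pow, map_add, map_ofNat] using this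
  have hJr' : (r c₁ - 1728) * (r a₁ ^ 4 * (r a₁ + 16))
      = (r a₁ + 32) ^ 2 * (r a₁ ^ 2 - 512 * r a₁ - 8192) ^ 2 := by
    linear_combination hJr
  -- the difference quotient
  have hrB : r (dq4 a₁ a₂) = (r a₁ ^ 2 + 256 * r a₁ + 4096) ^ 2 * r a₁ ^ 3
      * ((r a₁ + 32) * (r a₁ ^ 2 - 512 * r a₁ - 8192)) := by
    rw [map_dq4, hra, dq4_diag]
  have hP : r a₁ ^ 2 + 256 * r a₁ + 4096 ≠ 0 := by
    intro h
    rw [h] at hJr
    have : r c₁ * (r a₁ ^ 4 * (r a₁ + 16)) ≠ 0 :=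
      mul_ne_zero hrc₁ (mul_ne_zero (pow_ne_zero _ hra₁) hra₁')
    exact this (by rw [hJr]; ring)
  have hQ : (r a₁ + 32) * (r a₁ ^ 2 - 512 * r a₁ - 8192) ≠ 0 := by
    intro h
    have h2 : (r c₁ - 1728) * (r a₁ ^ 4 * (r a₁ + 16)) = 0 := by
      rw [hJr', ← mul_pow, h]; ring
    exact (mul_ne_zero hrc₁' (mul_ne_zero (pow_ne_zero _ hra₁) hra₁')) h2
  have hrB0 : r (dq4 a₁ a₂) ≠ 0 := by
    rw [hrB]
    exact mul_ne_zero (mul_ne_zero (pow_ne_zero _ hP) (pow_ne_zero _ hra₁)) hQ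
  have hBunit : IsUnit (dq4 a₁ a₂) := by
    by_contra hnu
    exact hrB0 ((residue_eq_zero_iff _).2 ((mem_maximalIdeal _).2 hnu))
  obtain ⟨Bu, hBu⟩ := hBunit
  -- the key identity in `L`
  have hBL : ((dq4 a₁ a₂ : V) : L) = dq4 (a₁ : L) (a₂ : L) := rfl
  have hkeyL : (j₂ - (c₁ : L))
        * (((a₁ : L) ^ 4 * ((a₁ : L) + 16)) * ((a₂ : L) ^ 4 * ((a₂ : L) + 16)))
      = ((a₂ : L) - a₁) * dq4 (a₁ : L) (a₂ : L) := by
    rw [← dq4_spec]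
    linear_combination ((a₁ : L) ^ 4 * ((a₁ : L) + 16)) * hJ₂
      - ((a₂ : L) ^ 4 * ((a₂ : L) + 16)) * hJ₁
  -- `Y = x^(6k)/U = Yj · A^(6k) / B^(6k) ∈ V`
  obtain ⟨A, hA⟩ : ∃ A : V, A = (a₁ ^ 4 * (a₁ + 16)) * (a₂ ^ 4 * (a₂ + 16)) := ⟨_, rfl⟩
  have hAL : (A : L) = ((a₁ : L) ^ 4 * ((a₁ : L) + 16)) * ((a₂ : L) ^ 4 * ((a₂ : L) + 16)) := by
    rw [hA]; rfl
  obtain ⟨Y, hY⟩ : ∃ Y : V, Y = Yj * A ^ (6 * k) * ((Bu⁻¹ : Vˣ) : V) ^ (6 * k) := ⟨_, rfl⟩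
  have hYB : Y * (dq4 a₁ a₂) ^ (6 * k) = Yj * A ^ (6 * k) := by
    rw [hY, ← hBu, mul_assoc, ← mul_pow, Units.inv_mul, one_pow, mul_one]
  have hYL : (Y : L) = ((a₂ : L) - a₁) ^ (6 * k) * U⁻¹ := by
    have hB0 : (dq4 (a₁ : L) (a₂ : L)) ^ (6 * k) ≠ 0 := by
      apply pow_ne_zero
      intro h
      apply hrB0
      have : dq4 a₁ a₂ = 0 := Subtype.ext (hBL.trans h)
      rw [this, map_zero]
    apply mul_right_cancel₀ hB0
    have h1 : (Y : L) * (dq4 (a₁ : L) (a₂ : L)) ^ (6 * k) = (Yj : L) * (A : L) ^ (6 * k) :=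
      congrArg (fun z : V => (z : L)) hYB
    have h6 : (j₂ - (c₁ : L)) ^ (6 * k) * (A : L) ^ (6 * k)
        = ((a₂ : L) - a₁) ^ (6 * k) * (dq4 (a₁ : L) (a₂ : L)) ^ (6 * k) := by
      rw [← mul_pow, ← mul_pow, hAL, hkeyL]
    rw [h1, ← hYjL]
    generalize (j₂ - (c₁ : L)) ^ (6 * k) = J6 at h6 ⊢
    generalize (A : L) ^ (6 * k) = A6 at h6 ⊢
    generalize ((a₂ : L) - a₁) ^ (6 * k) = X6 at h6 ⊢
    generalize (dq4 (a₁ : L) (a₂ : L)) ^ (6 * k) = D6 at h6 ⊢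
    linear_combination U⁻¹ * h6
  -- residue of `Y`
  have hrY : r Y = (r a₁ ^ 2 * (r a₁ + 16) ^ 5) ^ k := by
    have h1 := congrArg r hYB
    rw [map_mul, map_mul, map_pow, map_pow, hrYj, hrB] at h1
    have hrA : r A = (r a₁ ^ 4 * (r a₁ + 16)) * (r a₁ ^ 4 * (r a₁ + 16)) := by
      rw [hA]
      simp only [map_mul, map_pow, map_add, map_ofNat, hra]
    rw [hrA] at h1
    have hW0 : ((r a₁ ^ 2 + 256 * r a₁ + 4096) ^ 2 * r a₁ ^ 3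
        * ((r a₁ + 32) * (r a₁ ^ 2 - 512 * r a₁ - 8192))) ^ (6 * k) ≠ 0 := by
      rw [← hrB]; exact pow_ne_zero _ hrB0
    apply mul_right_cancel₀ hW0
    rw [h1, pow_mul, pow_mul, ← mul_pow, ← mul_pow, res_alg4 (r a₁) (r c₁) hJr]
  -- conclusion
  have hfin : r (Y - (a₁ ^ 2 * (a₁ + 16) ^ 5) ^ k) = 0 := by
    rw [map_sub, hrY]
    simp only [map_mul, map_pow, map_add, map_ofNat, sub_self]
  have hmem := (hr0 _).1 hfin
  have e : ((a₂ : L) - a₁) ^ (6 * k) * U⁻¹ - ((a₁ : L) ^ 2 * ((a₁ : L) + 16) ^ 5) ^ k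
      = (((a₂ : L) - a₁) ^ (6 * k) - ((a₁ : L) ^ 2 * ((a₁ : L) + 16) ^ 5) ^ k * U) * U⁻¹ := by
    field_simp
  rw [← e, ← hYL]
  exact hmem

end Fermat.Agent.S36.H878
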