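import Fermat.Agent.S36.H878.MidCongr
import Fermat.Agent.S36.H878.Transfer4

/-!
# `γ(t₄) ≡ t₄` on the middle component and the transfer of the residue (helper878, S36 REG)

Level `M` with `4 ∣ M`, `q ∤ M` odd.  `A = α ∘ α`, `G = β ∘ β : F_M → F_{Mqq}`
(`A f = f(t)`, `G f = f(t^{q²})`; written as nested applications, no composite `AlgHom`).  With `MidData` (file `MidCongr.lean`):

* `MidData.t4_congr`  : `A t₄ ∈ V₂`, `G t₄ ∈ V₂`, `G t₄ - A t₄ ∈ 𝔪_{V₂}`;
* `MidData.t4_units`  : `A t₄`, `A t₄ + 16`, `j`, `j - 1728` are units of `V₂`;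
* `MidData.hres_t4`   : **transfer**: the residue statement `hres` for
  `(x, g) = (j_{qq} - j, (j⁴ (j - 1728)³) ^ k)` gives `hres` for
  `(x, g) = (G t₄ - A t₄, (t₄² (t₄ + 16)⁵) ^ k)`, any `U`, exponent `6 k`.
-/

set_option autoImplicit false
set_option linter.unusedSectionVars false
set_option linter.style.haveILetI false
set_option synthInstance.maxHeartbeats 400000
set_option maxHeartbeats 1600000

noncomputable section

namespace Fermat.Agent.S36.H878

open ModularCurve HahnSeries Fermat.Agent.A2 Fermat.Agent.A2.Mod Fermat.Agent.Lib.Haupt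

/-! ## Integer series and their reductions -/

section Series

/-- `U₂(j, j₂)` over `ℤ`. -/
def U2Z : LaurentSeries ℤ :=
  jqModC ℤ * qExpand ℤ 2 (jqModC ℤ) - 720 * jqModC ℤ - 720 * qExpand ℤ 2 (jqModC ℤ) - 16250625

theorem coeffMap_U2Z (K : Type*) [Field K] : coeffMap (Int.castRingHom K) U2Z = U2 K := by
  rw [U2Z, U2]
  simp only [map_sub, map_mul, coeffMap_qExpand, coeffMap_jqModC, map_ofNat]

theorem coeff_jq_neg_one (K : Type*) [CommRing K] : (jqModC K).coeff (-1) = 1 := by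
  rw [jqModC_eq, coeff_qinv_mul_lau, show (-1 : ℤ) + 1 = ((0 : ℕ) : ℤ) by norm_num,
    coeff_lau_natCast, PowerSeries.coeff_zero_eq_constantCoeff, constantCoeff_jNum, Int.cast_one]

theorem coeff_jq_add_neg_one (K : Type*) [CommRing K] (c : ℤ) :
    (jqModC K + (c : LaurentSeries K)).coeff (-1) = 1 := by
  rw [jqModC_eq, t_add_const, coeff_qinv_mul_lau, show (-1 : ℤ) + 1 = ((0 : ℕ) : ℤ) by norm_num,
    coeff_lau_natCast, PowerSeries.coeff_zero_eq_constantCoeff]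
  simp [constantCoeff_jNum]

theorem jq_add_ne_zero (K : Type*) [CommRing K] [Nontrivial K] (c : ℤ) :
    jqModC K + (c : LaurentSeries K) ≠ 0 := fun h => by
  have := coeff_jq_add_neg_one K c
  rw [h] at this
  simp at this

end Series

/-! ## The elements of level `M` -/

section LevelM

variable (E : IntermediateField ℚ Qb) (M : ℕ) [NeZero M]

theorem t2_mem_FE (h2 : 2 ∣ M) : t2 (↥E) ∈ FE E M := by
  have h := coeffEmb_mem_laurentBaseChange (↥E) (t2_mem_full M h2)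
  rwa [coeffEmb, coeffMap_t2] at h

theorem t2e_mem_FE (h4 : 4 ∣ M) : qExpand (↥E) 2 (t2 (↥E)) ∈ FE E M := by
  have h0 : qExpand ℚ 2 (t2 ℚ) ∈ modularFunctionFieldFull M := qExpand_t2_mem_fullC ℚ M h4
  have h := coeffEmb_mem_laurentBaseChange (↥E) h0
  rwa [coeffEmb, coeffMap_qExpand, coeffMap_t2] at h

/-- `t₂` at level `M`. -/
def t2M (h2 : 2 ∣ M) : FE E M := ⟨t2 (↥E), t2_mem_FE E M h2⟩

/-- `t₂(t²)` at level `M`. -/
def t2eM (h4 : 4 ∣ M) : FE E M := ⟨qExpand (↥E) 2 (t2 (↥E)), t2e_mem_FE E M h4⟩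

/-- `t₄` at level `M`. -/
def t4M (h4 : 4 ∣ M) : FE E M := ⟨t4 (↥E), t4_mem_laurentBaseChange (↥E) M h4⟩

theorem coe_jE_ser (N d : ℕ) [NeZero d] (hd : d ∣ N) :
    ((jE E N d hd : FE E N) : LaurentSeries E) = qExpand (↥E) d (jqModC (↥E)) := by
  show coeffEmb E (qExpand ℚ d jq) = _
  rw [coeffEmb, coeffMap_qExpand, ← jqModC_rat, coeffMap_jqModC]

variable {M}

theorem two_dvd_of_four_dvd (h4 : 4 ∣ M) : 2 ∣ M := (by norm_num : (2 : ℕ) ∣ 4).trans h4

/-- `U₂(j, j₂) · t₂ = W₂(j, j₂)` at level `M`. -/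
theorem l1M (h4 : 4 ∣ M) :
    (jE E M 1 (one_dvd _) * jE E M 2 (two_dvd_of_four_dvd h4) - 720 * jE E M 1 (one_dvd _)
        - 720 * jE E M 2 (two_dvd_of_four_dvd h4) - 16250625) * t2M E M (two_dvd_of_four_dvd h4)
      = jE E M 2 (two_dvd_of_four_dvd h4) ^ 2 + 4095 * jE E M 1 (one_dvd _)
        + 195120 * jE E M 2 (two_dvd_of_four_dvd h4) + 660960000 := by
  apply Subtype.ext
  have h := t2_lin (↥E)
  rw [U2, W2] at h
  push_cast
  rw [coe_jE_ser, coe_jE_ser, qExpand_one_apply]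
  exact h

/-- `U₂(j₂, j₄) · t₂(t²) = W₂(j₂, j₄)` at level `M`. -/
theorem l2M (h4 : 4 ∣ M) :
    (jE E M 2 (two_dvd_of_four_dvd h4) * jE E M 4 h4 - 720 * jE E M 2 (two_dvd_of_four_dvd h4)
        - 720 * jE E M 4 h4 - 16250625) * t2eM E M h4
      = jE E M 4 h4 ^ 2 + 4095 * jE E M 2 (two_dvd_of_four_dvd h4)
        + 195120 * jE E M 4 h4 + 660960000 := by
  apply Subtype.ext
  have h := congrArg (qExpand (↥E) 2) (t2_lin (↥E))
  rw [U2, W2] at h
  simp only [map_mul, map_sub, map_add, map_pow, map_ofNat, qExpand_qExpand] at h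
  have e4 : qExpand (↥E) (2 * 2) (jqModC (↥E)) = qExpand (↥E) 4 (jqModC (↥E)) :=
    qExpand_congr (by norm_num) _
  rw [e4] at h
  push_cast
  rw [coe_jE_ser, coe_jE_ser]
  exact h

/-- `t₄ (t₂ + 16) = t₂(t²) - 16 t₂` at level `M`. -/
theorem l3M (h4 : 4 ∣ M) :
    t4M E M h4 * (t2M E M (two_dvd_of_four_dvd h4) + 16)
      = t2eM E M h4 - 16 * t2M E M (two_dvd_of_four_dvd h4) := by
  apply Subtype.ext
  push_cast
  exact t4_mul (↥E)

/-- `j · t₄⁴ (t₄ + 16) = (t₄² + 256 t₄ + 4096)³` at level `M`. -/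
theorem hJM (h4 : 4 ∣ M) :
    jE E M 1 (one_dvd _) * (t4M E M h4 ^ 4 * (t4M E M h4 + 16))
      = (t4M E M h4 ^ 2 + 256 * t4M E M h4 + 4096) ^ 3 := by
  apply Subtype.ext
  push_cast
  rw [coe_jE_ser, qExpand_one_apply]
  exact jq_mul_t4 (↥E)

end LevelM

/-! ## The two embeddings `α ∘ α`, `β ∘ β` of level `M` into level `M q q` -/

section Maps

variable (E : IntermediateField ℚ Qb) (M q : ℕ) [NeZero M] [NeZero q] [NeZero (M * q)]

theorem coe_alpha_alpha (x : FE E M) :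
    ((αE E (M * q) q (αE E M q x) : FE E (M * q * q)) : LaurentSeries E) = x := by
  rw [coe_heckeAlphaBar, coe_heckeAlphaBar]

theorem AA_jE (d : ℕ) [NeZero d] (hd : d ∣ M) :
    αE E (M * q) q (αE E M q (jE E M d hd))
      = jE E (M * q * q) d ((hd.trans (dvd_mul_right M q)).trans (dvd_mul_right _ q)) := by
  rw [alpha_jE_M, alpha_jE']

theorem GG_jE (d : ℕ) [NeZero d] [NeZero (d * q)] [NeZero (d * q * q)] (hd : d ∣ M) :
    βE E (M * q) q (βE E M q (jE E M d hd))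
      = jE E (M * q * q) (d * q * q) (mul_dvd_mul_right (mul_dvd_mul_right hd q) q) := by
  rw [beta_jE_M, beta_jE']

end Maps

section MidT4

variable {P : ValuationSubring Qb} {E : IntermediateField ℚ Qb} {M q : ℕ}
  [NeZero M] [NeZero q] [NeZero (M * q)]
  {V₁' V₂' : ValuationSubring (FE E (M * q))} {V₂ : ValuationSubring (FE E (M * q * q))}
  {W' : FE E (M * q) ≃ₐ[E] FE E (M * q)}

/-- Images under `A` of Gauss units of level `M` are units of `V₂`. -/
theorem MidData.valuation_AA_eq_one (D : MidData P E M q V₁' V₂' V₂ W')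
    (x : FE E M) (Z : LaurentSeries ℤ)
    (hx : (x : LaurentSeries E) = coeffMap (Int.castRingHom E) Z)
    (hZ : coeffMap (Int.castRingHom (IsLocalRing.ResidueField (RE P E))) Z ≠ 0) :
    V₂.valuation (αE E (M * q) q (αE E M q x)) = 1 :=
  D.valuation_alpha_eq_one (αE E M q x) Z (by rw [coe_heckeAlphaBar]; exact hx) hZ

/-- `A j_d ≡ G j_d` for `d ∣ M`. -/
theorem MidData.jE_congr_AG (D : MidData P E M q V₁' V₂' V₂ W')
    (d : ℕ) [NeZero d] (hd : d ∣ M) :
    αE E (M * q) q (αE E M q (jE E M d hd)) ∈ V₂ ∧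
    βE E (M * q) q (βE E M q (jE E M d hd)) ∈ V₂ ∧
      βE E (M * q) q (βE E M q (jE E M d hd)) - αE E (M * q) q (αE E M q (jE E M d hd))
        ∈ V₂.nonunits := by
  obtain ⟨d', hdd⟩ := id hd
  have hM0 : M ≠ 0 := NeZero.ne M
  haveI : NeZero d' := ⟨fun h => hM0 (by rw [hdd, h, mul_zero])⟩
  haveI : NeZero (d * q) := ⟨mul_ne_zero (NeZero.ne d) (NeZero.ne q)⟩
  haveI : NeZero (d * q * q) :=
    ⟨mul_ne_zero (mul_ne_zero (NeZero.ne d) (NeZero.ne q)) (NeZero.ne q)⟩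
  have h := D.jE_congr d d' hdd.symm
  rw [AA_jE, GG_jE]
  exact h

end MidT4

/-! ## Series of the denominators -/

section Denominators

variable (E : IntermediateField ℚ Qb) {M : ℕ} [NeZero M]

theorem coe_U2M (h4 : 4 ∣ M) :
    ((jE E M 1 (one_dvd _) * jE E M 2 (two_dvd_of_four_dvd h4) - 720 * jE E M 1 (one_dvd _)
        - 720 * jE E M 2 (two_dvd_of_four_dvd h4) - 16250625 : FE E M) : LaurentSeries E)
      = coeffMap (Int.castRingHom E) U2Z := by
  rw [coeffMap_U2Z, U2]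
  push_cast
  rw [coe_jE_ser, coe_jE_ser, qExpand_one_apply]
  rfl

theorem coe_U2eM (h4 : 4 ∣ M) :
    ((jE E M 2 (two_dvd_of_four_dvd h4) * jE E M 4 h4 - 720 * jE E M 2 (two_dvd_of_four_dvd h4)
        - 720 * jE E M 4 h4 - 16250625 : FE E M) : LaurentSeries E)
      = coeffMap (Int.castRingHom E) (qExpand ℤ 2 U2Z) := by
  rw [coeffMap_qExpand, coeffMap_U2Z, U2]
  simp only [map_sub, map_mul, map_ofNat, qExpand_qExpand]
  have e4 : qExpand (↥E) (2 * 2) (jqModC (↥E)) = qExpand (↥E) 4 (jqModC (↥E)) :=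
    qExpand_congr (by norm_num) _
  rw [e4]
  push_cast
  rw [coe_jE_ser, coe_jE_ser]
  rfl

theorem coe_t2M_add (h4 : 4 ∣ M) :
    ((t2M E M (two_dvd_of_four_dvd h4) + 16 : FE E M) : LaurentSeries E)
      = coeffMap (Int.castRingHom E) (t2 ℤ + 16) := by
  rw [map_add, coeffMap_t2, map_ofNat]
  rfl

theorem coe_t4M (h4 : 4 ∣ M) :
    ((t4M E M h4 : FE E M) : LaurentSeries E) = coeffMap (Int.castRingHom E) (t4 ℤ) := by
  rw [coeffMap_t4]
  rfl

theorem coe_t4M_add (h4 : 4 ∣ M) :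
    ((t4M E M h4 + 16 : FE E M) : LaurentSeries E)
      = coeffMap (Int.castRingHom E) (t4 ℤ + 16) := by
  rw [map_add, coeffMap_t4, map_ofNat]
  rfl

theorem coe_jM (M : ℕ) :
    ((jE E M 1 (one_dvd _) : FE E M) : LaurentSeries E)
      = coeffMap (Int.castRingHom E) (jqModC ℤ) := by
  rw [coe_jE_ser, qExpand_one_apply, coeffMap_jqModC]

theorem coe_jM_sub (M : ℕ) :
    ((jE E M 1 (one_dvd _) - 1728 : FE E M) : LaurentSeries E)
      = coeffMap (Int.castRingHom E) (jqModC ℤ - 1728) := by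
  rw [map_sub, coeffMap_jqModC, map_ofNat]
  push_cast
  rw [coe_jE_ser, qExpand_one_apply]
  rfl

variable (K : Type*) [Field K]

theorem red_U2Z : coeffMap (Int.castRingHom K) U2Z ≠ 0 := by
  rw [coeffMap_U2Z]
  exact U2_ne_zero K

theorem red_U2eZ : coeffMap (Int.castRingHom K) (qExpand ℤ 2 U2Z) ≠ 0 := by
  rw [coeffMap_qExpand, coeffMap_U2Z]
  intro h
  exact U2_ne_zero K (qExpand_injective (R := K) (N := 2) (h.trans (map_zero _).symm))

theorem red_t2_add : coeffMap (Int.castRingHom K) (t2 ℤ + 16) ≠ 0 := by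
  rw [map_add, coeffMap_t2, map_ofNat]
  simpa using t2_add_ne_zero K 16

theorem red_t4 : coeffMap (Int.castRingHom K) (t4 ℤ) ≠ 0 := by
  rw [coeffMap_t4]
  exact t4_ne_zero K

theorem red_t4_add : coeffMap (Int.castRingHom K) (t4 ℤ + 16) ≠ 0 := by
  rw [map_add, coeffMap_t4, map_ofNat]
  simpa using t4_add_ne_zero K 16

theorem red_jq : coeffMap (Int.castRingHom K) (jqModC ℤ) ≠ 0 := by
  rw [coeffMap_jqModC]
  simpa using jq_add_ne_zero K 0

theorem red_jq_sub : coeffMap (Int.castRingHom K) (jqModC ℤ - 1728) ≠ 0 := by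
  rw [map_sub, coeffMap_jqModC, map_ofNat]
  have := jq_add_ne_zero K (-1728)
  simpa [sub_eq_add_neg] using this

end Denominators

/-! ## The congruence `γ(t₄) ≡ t₄`, the units, the transfer -/

section Main

variable {P : ValuationSubring Qb} {E : IntermediateField ℚ Qb} {M q : ℕ}
  [NeZero M] [NeZero q] [NeZero (M * q)]
  {V₁' V₂' : ValuationSubring (FE E (M * q))} {V₂ : ValuationSubring (FE E (M * q * q))}
  {W' : FE E (M * q) ≃ₐ[E] FE E (M * q)}

/-- **`γ(t₄) ≡ t₄` modulo `𝔪_{V₂}`.** -/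
theorem MidData.t4_congr (D : MidData P E M q V₁' V₂' V₂ W') (h4 : 4 ∣ M) :
    αE E (M * q) q (αE E M q (t4M E M h4)) ∈ V₂ ∧
    βE E (M * q) q (βE E M q (t4M E M h4)) ∈ V₂ ∧
      βE E (M * q) q (βE E M q (t4M E M h4)) - αE E (M * q) q (αE E M q (t4M E M h4))
        ∈ V₂.nonunits := by
  have h2 : 2 ∣ M := two_dvd_of_four_dvd h4
  obtain ⟨hj, -, c1⟩ := D.jE_congr_AG 1 (one_dvd M)
  obtain ⟨hj2, -, c2⟩ := D.jE_congr_AG 2 h2
  obtain ⟨hj4, -, c4⟩ := D.jE_congr_AG 4 h4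
  -- the relations, transported
  have l1 := congrArg (fun x => αE E (M * q) q (αE E M q x)) (l1M E h4)
  have l2 := congrArg (fun x => αE E (M * q) q (αE E M q x)) (l2M E h4)
  have l3 := congrArg (fun x => αE E (M * q) q (αE E M q x)) (l3M E h4)
  have l1' := congrArg (fun x => βE E (M * q) q (βE E M q x)) (l1M E h4)
  have l2' := congrArg (fun x => βE E (M * q) q (βE E M q x)) (l2M E h4)
  have l3' := congrArg (fun x => βE E (M * q) q (βE E M q x)) (l3M E h4)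
  simp only [map_mul, map_sub, map_add, map_pow, map_ofNat] at l1 l2 l3 l1' l2' l3'
  -- the units
  have hU := D.valuation_AA_eq_one _ _ (coe_U2M E h4) (red_U2Z _)
  have hUe := D.valuation_AA_eq_one _ _ (coe_U2eM E h4) (red_U2eZ _)
  have h16 := D.valuation_AA_eq_one _ _ (coe_t2M_add E h4) (red_t2_add _)
  simp only [map_mul, map_sub, map_add, map_ofNat] at hU hUe h16
  exact Fermat.Agent.S36.H878.t4_congr V₂ hj hj2 hj4 c1 c2 c4 hU hUe h16 l1 l2 l3 l1' l2' l3'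

/-- The Gauss units `t₄`, `t₄ + 16`, `j`, `j - 1728` on the middle component. -/
theorem MidData.t4_units (D : MidData P E M q V₁' V₂' V₂ W') (h4 : 4 ∣ M) :
    V₂.valuation (αE E (M * q) q (αE E M q (t4M E M h4))) = 1 ∧
    V₂.valuation (αE E (M * q) q (αE E M q (t4M E M h4)) + 16) = 1 ∧
    V₂.valuation (αE E (M * q) q (αE E M q (jE E M 1 (one_dvd _)))) = 1 ∧
    V₂.valuation (αE E (M * q) q (αE E M q (jE E M 1 (one_dvd _))) - 1728) = 1 := by
  have h1 := D.valuation_AA_eq_one _ _ (coe_t4M E h4) (red_t4 _)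
  have h2 := D.valuation_AA_eq_one _ _ (coe_t4M_add E h4) (red_t4_add _)
  have h3 := D.valuation_AA_eq_one _ _ (coe_jM E M) (red_jq _)
  have h4' := D.valuation_AA_eq_one _ _ (coe_jM_sub E M) (red_jq_sub _)
  simp only [map_sub, map_add, map_ofNat] at h2 h4'
  exact ⟨h1, h2, h3, h4'⟩

/-- **Transfer of the residue from `j` to `t₄`** on the middle component. -/
theorem MidData.hres_t4 (D : MidData P E M q V₁' V₂' V₂ W') (h4 : 4 ∣ M)
    (U : FE E (M * q * q)) (k : ℕ)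
    (hres : ((βE E (M * q) q (βE E M q (jE E M 1 (one_dvd _)))
          - αE E (M * q) q (αE E M q (jE E M 1 (one_dvd _)))) ^ (6 * k)
        - (αE E (M * q) q (αE E M q (jE E M 1 (one_dvd _))) ^ 4
            * (αE E (M * q) q (αE E M q (jE E M 1 (one_dvd _))) - 1728) ^ 3) ^ k * U) * U⁻¹
      ∈ V₂.nonunits) :
    ((βE E (M * q) q (βE E M q (t4M E M h4))
          - αE E (M * q) q (αE E M q (t4M E M h4))) ^ (6 * k)
        - (αE E (M * q) q (αE E M q (t4M E M h4)) ^ 2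
            * (αE E (M * q) q (αE E M q (t4M E M h4)) + 16) ^ 5) ^ k * U) * U⁻¹
      ∈ V₂.nonunits := by
  obtain ⟨-, hh₂, hx⟩ := D.t4_congr h4
  obtain ⟨u1, u2, u3, u4⟩ := D.t4_units h4
  have hJ₁ := congrArg (fun x => αE E (M * q) q (αE E M q x)) (hJM E h4)
  have hJ₂ := congrArg (fun x => βE E (M * q) q (βE E M q x)) (hJM E h4)
  simp only [map_mul, map_add, map_pow, map_ofNat] at hJ₁ hJ₂
  exact hres_transfer4 V₂ _ _ _ _ U k hJ₁ hJ₂ u1 u2 u3 u4 hh₂ hx hres

end Main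

end Fermat.Agent.S36.H878
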