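import Fermat.Agent.S36.H878.RegSelf
import Fermat.Agent.S36.H878.MidT4
import Fermat.Agent.S36.H994.Chart4
import Fermat.Agent.S36.Mod3.H816.Table
import Fermat.Agent.S36.Mod3.H189.ChartLeaf

/-!
# MOD3 / REG, route R4 with `t₄`, CONCRETE (helper878): `PrincipalAt` on the middle component,
`q` odd

Concrete objects of `Mod3/Spec.lean` (`Std`, `Objs`), with `4 ∣ M` (so `q ≠ 2`; under `NeatFor`
this is the case `q` odd).  Exact mirror of helper890's `RegMid9.lean` (`q = 2`, `9 ∣ M`):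

* `principalAt_mid_t4`      : the middle component of the finite chart is principal at EVERY
  closed point through which it passes (triple points included), generator
  `γ(t₄) - t₄`, `γ = β ∘ β`, given (R-U) and (R-RES);
* `principalAt_mid_t4_conc` : the same in the delivered shapes of (R-U) (helper356 `PartRegU`)
  and (R-RES) (helper922 `h922_hres_mid` at `M₁ = M q`, `V = V₂`).

Discharged here: `t₄, γ(t₄) ∈ chart`, `g = (t₄² (t₄ + 16)⁵) ^ k` is a unit of the chart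
(`2⁻¹ ∈ R`), `γ(t₄) ≡ t₄` modulo `𝔪_{V₂}` (Frobenius trick, `MidCongr.lean`), the Gauss units
and the transfer of the residue from `j` to `t₄` (`MidT4.lean`).
-/

set_option autoImplicit false
set_option linter.style.haveILetI false
set_option linter.unusedSectionVars false
set_option synthInstance.maxHeartbeats 400000
set_option maxHeartbeats 1600000

noncomputable section

namespace Fermat.Agent.S36.H878

open ModularCurve
open Fermat.Agent Fermat.Agent.A2.Mod Fermat.Agent.S36.Eng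
open Fermat.Agent.S18.H138 (chart)

/-! ## Generalities -/

/-- `q ∈ 𝔪_V`, `n` prime to `q` ⟹ `n⁻¹ ∈ V`. -/
theorem natCast_inv_mem_of_coprime' {L : Type*} [Field L] (V : ValuationSubring L) {q n : ℕ}
    (hq : ((q : ℕ) : L) ∈ V.nonunits) (hqn : Nat.Coprime q n) : ((n : ℕ) : L)⁻¹ ∈ V := by
  by_contra hn
  have hnV : V.valuation ((n : ℕ) : L) < 1 := by
    by_cases h0 : ((n : ℕ) : L) = 0
    · rw [h0, map_zero]; exact zero_lt_one
    · exact (V.mem_nonunits_iff).1 ((mem_nonunits_iff_inv_not_mem V h0).2 hn)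
  have hqV : V.valuation ((q : ℕ) : L) < 1 := (V.mem_nonunits_iff).1 hq
  have hint : ∀ z : ℤ, V.valuation (z : L) ≤ 1 := fun z =>
    (V.valuation_le_one_iff _).2 (intCast_mem V z)
  have h1 : (1 : L) = ((Nat.gcdA q n : ℤ) : L) * ((q : ℕ) : L)
      + ((Nat.gcdB q n : ℤ) : L) * ((n : ℕ) : L) := by
    have h := Nat.gcd_eq_gcd_ab q n
    rw [hqn] at h
    have h' := congrArg (fun z : ℤ => (z : L)) h
    simp only [Nat.cast_one, Int.cast_one, Int.cast_add, Int.cast_mul, Int.cast_natCast] at h'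
    rw [h']
    ring
  have h2 : V.valuation (1 : L) < 1 := by
    rw [h1]
    refine lt_of_le_of_lt (Valuation.map_add _ _ _) (max_lt ?_ ?_)
    · rw [map_mul, mul_comm]
      exact mul_lt_one_of_lt_of_le hqV (hint _)
    · rw [map_mul, mul_comm]
      exact mul_lt_one_of_lt_of_le hnV (hint _)
  rw [map_one] at h2
  exact lt_irrefl _ h2

/-- `j_d` only depends on `d`. -/
theorem jE_index_congr (E : IntermediateField ℚ A2.Qb) (N : ℕ) {d d' : ℕ} [NeZero d] [NeZero d']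
    (h : d = d') (hd : d ∣ N) (hd' : d' ∣ N) : jE E N d hd = jE E N d' hd' := by
  subst h
  rfl

/-! ## The abstract plug -/

section Abstract

variable {R F : Type*} [CommRing R] [Field F] [CharZero F] [Algebra R F]

/-- **Route R4 with `t₄`: the middle component is principal at every closed point.**
Mirror of `H890.principalAt_t9`. -/
theorem principalAt_t4 (w : R) (S : Set F) (V₁ V₂ V₃ : ValuationSubring F)
    (hw0 : algebraMap R F w ≠ 0)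
    (hB₁ : ∀ b : chart R S, (b : F) ∈ V₁) (hB₂ : ∀ b : chart R S, (b : F) ∈ V₂)
    (hB₃ : ∀ b : chart R S, (b : F) ∈ V₃)
    (hqep : Qep3 w (chart R S) V₁ V₂ V₃)
    (𝔪 : Ideal (chart R S)) (h𝔪 : 𝔪 ≠ ⊤) (hthr : Through (chart R S) 𝔪 V₂)
    -- (R-U)
    (U d : chart R S) (k kk : ℕ) (hkk : 0 < kk)
    (hUd : U * d = algebraMap R (chart R S) w ^ k)
    (hU₁ : (U : F)⁻¹ ∈ V₁) (hU₃ : (U : F)⁻¹ ∈ V₃)
    (t : F) (ht : UnifAt V₂ t) (hU₂ : UnitAt V₂ ((U : F) * (t ^ (6 * kk))⁻¹))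
    -- (R-4)
    (j₁ j₂ h₁ h₂ : F)
    (hj₁B : j₁ ∈ chart R S) (hj₂B : j₂ ∈ chart R S) (h2 : (2 : F)⁻¹ ∈ chart R S)
    (hJ₁ : j₁ * (h₁ ^ 4 * (h₁ + 16)) = (h₁ ^ 2 + 256 * h₁ + 4096) ^ 3)
    (hJ₂ : j₂ * (h₂ ^ 4 * (h₂ + 16)) = (h₂ ^ 2 + 256 * h₂ + 4096) ^ 3)
    -- the residue for `t₄` (= `hres_transfer4` of the residue for `j`)
    (hres : ((h₂ - h₁) ^ (6 * kk) - (h₁ ^ 2 * (h₁ + 16) ^ 5) ^ kk * (U : F)) * (U : F)⁻¹
      ∈ V₂.nonunits) :
    PrincipalAt (chart R S) 𝔪 V₂ := by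
  have hh₁B : h₁ ∈ chart R S := H994.mem_chart_of_rel4 S hj₁B hJ₁
  have hh₂B : h₂ ∈ chart R S := H994.mem_chart_of_rel4 S hj₂B hJ₂
  have hgB : (h₁ ^ 2 * (h₁ + 16) ^ 5) ^ kk ∈ chart R S :=
    pow_mem (H994.g4_mem_of_mem (chart R S) hh₁B) kk
  have hgiB : ((h₁ ^ 2 * (h₁ + 16) ^ 5) ^ kk)⁻¹ ∈ chart R S :=
    H994.g4_pow_inv_mem_of_rel4 (chart R S) hj₁B hh₁B h2 hJ₁ kk
  have hg0 : (h₁ ^ 2 * (h₁ + 16) ^ 5) ^ kk ≠ 0 := pow_ne_zero _ (H994.g4_ne_zero_of_rel4 hJ₁)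
  have hg : (⟨(h₁ ^ 2 * (h₁ + 16) ^ 5) ^ kk, hgB⟩ : chart R S) ∉ 𝔪 := by
    intro hmem
    apply h𝔪
    rw [Ideal.eq_top_iff_one]
    have h1 : (⟨(h₁ ^ 2 * (h₁ + 16) ^ 5) ^ kk, hgB⟩ : chart R S)
        * ⟨((h₁ ^ 2 * (h₁ + 16) ^ 5) ^ kk)⁻¹, hgiB⟩ = 1 :=
      Subtype.ext (mul_inv_cancel₀ hg0)
    rw [← h1]
    exact 𝔪.mul_mem_right _ hmem
  exact principalAt_of_unit_self' w (chart R S) V₁ V₂ V₃ hw0 hB₁ hB₂ hB₃ hqep 𝔪 hthr
    ((⟨h₂, hh₂B⟩ : chart R S) - ⟨h₁, hh₁B⟩) U d ⟨_, hgB⟩ k (6 * kk) (by omega) hUd hU₁ hU₃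
    t ht hU₂ hg hres

end Abstract

/-! ## The concrete plug -/

section Main

variable {P : ValuationSubring A2.Qb} {E : IntermediateField ℚ A2.Qb} {M q : ℕ}
  [NeZero M] [NeZero q] [NeZero (M * q)] {w : A2.RE P E}
  {V₁' V₂' : ValuationSubring (FE E (M * q))}
  {V₁ V₂ V₃ : ValuationSubring (FE E (M * q * q))}
  {W' : FE E (M * q) ≃ₐ[E] FE E (M * q)}
  {W : FE E (M * q * q) ≃ₐ[E] FE E (M * q * q)}

/-- The data of the middle valuation ring, from `Std`, `Objs` and the table. -/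
theorem midData_of_objs (hStd : Mod3.Std P E M q w)
    (hO : Mod3.Objs P E M q V₁' V₂' V₁ V₂ V₃ W' W) : MidData P E M q V₁' V₂' V₂ W' where
  q_prime := hStd.q_prime
  lies_over := hStd.lies_over
  vinf' := hO.vinf'
  fricke' := hO.fricke'
  vzero' := hO.vzero'
  comap_α := hO.mid
  comap_β := (Mod3.H816.leafTable P E M q w hStd V₁' V₂' V₁ V₂ V₃ W' W hO).comap_β₂

/-- `2⁻¹ ∈ chart R S` at level `M q²` when `2 ∣ M` (then `q ≠ 2`). -/
theorem two_inv_mem_chart (hStd : Mod3.Std P E M q w) (h2 : 2 ∣ M)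
    (S : Set (FE E (M * q * q))) :
    (2 : FE E (M * q * q))⁻¹ ∈ chart (A2.RE P E) S := by
  have hq2 : q ≠ 2 := by
    rintro rfl
    exact hStd.q_not_dvd h2
  have hcop : Nat.Coprime q 2 := (Nat.coprime_primes hStd.q_prime Nat.prime_two).2 hq2
  have hP : ((2 : ℕ) : A2.Qb)⁻¹ ∈ P := natCast_inv_mem_of_coprime' P hStd.lies_over hcop
  have hE : ((2 : E))⁻¹ ∈ A2.RE P E := by
    show algebraMap E A2.Qb ((2 : E))⁻¹ ∈ P
    rw [map_inv₀, map_ofNat]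
    rwa [Nat.cast_ofNat] at hP
  have h := Subalgebra.algebraMap_mem (chart (A2.RE P E) S) (⟨(2 : E)⁻¹, hE⟩ : A2.RE P E)
  have e : algebraMap (A2.RE P E) (FE E (M * q * q)) (⟨(2 : E)⁻¹, hE⟩ : A2.RE P E)
      = algebraMap E (FE E (M * q * q)) ((2 : E)⁻¹) := rfl
  rw [e] at h
  rwa [map_inv₀, map_ofNat] at h

theorem AA_jE_one :
    αE E (M * q) q (αE E M q (jE E M 1 (one_dvd _))) = Mod3.j1 E M q := by
  rw [AA_jE]
  rfl

theorem GG_jE_one :
    βE E (M * q) q (βE E M q (jE E M 1 (one_dvd _))) = Mod3.jqq E M q := by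
  haveI : NeZero (1 * q) := ⟨mul_ne_zero one_ne_zero (NeZero.ne q)⟩
  haveI : NeZero (1 * q * q) :=
    ⟨mul_ne_zero (mul_ne_zero one_ne_zero (NeZero.ne q)) (NeZero.ne q)⟩
  haveI : NeZero (q * q) := ⟨mul_ne_zero (NeZero.ne q) (NeZero.ne q)⟩
  rw [GG_jE]
  exact jE_index_congr E _ (by ring) _ _

/-- **MOD3 / REG, route R4 with `t₄`, concrete.**  With `4 ∣ M` (case `q` odd of `NeatFor`), the
middle component of the finite chart is principal at EVERY closed point through which it passes,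
given (R-U) and (R-RES) of LEAFREG PLAN v2 (`U = U_m`, `6 kk = 12 (q - 1)`). -/
theorem principalAt_mid_t4 (hStd : Mod3.Std P E M q w)
    (hO : Mod3.Objs P E M q V₁' V₂' V₁ V₂ V₃ W' W) (h4 : 4 ∣ M)
    (hB₁ : ∀ b : chart (A2.RE P E) ({Mod3.x3E E M q} : Set (FE E (M * q * q))),
      (b : FE E (M * q * q)) ∈ V₁)
    (hB₂ : ∀ b : chart (A2.RE P E) ({Mod3.x3E E M q} : Set (FE E (M * q * q))),
      (b : FE E (M * q * q)) ∈ V₂)
    (hB₃ : ∀ b : chart (A2.RE P E) ({Mod3.x3E E M q} : Set (FE E (M * q * q))),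
      (b : FE E (M * q * q)) ∈ V₃)
    (hqep : Qep3 w (chart (A2.RE P E) ({Mod3.x3E E M q} : Set (FE E (M * q * q)))) V₁ V₂ V₃)
    (𝔪 : Ideal (chart (A2.RE P E) ({Mod3.x3E E M q} : Set (FE E (M * q * q)))))
    (h𝔪 : 𝔪 ≠ ⊤) (hthr : Through _ 𝔪 V₂)
    -- (R-U)
    (U d : chart (A2.RE P E) ({Mod3.x3E E M q} : Set (FE E (M * q * q)))) (k kk : ℕ)
    (hkk : 0 < kk)
    (hUd : U * d = algebraMap (A2.RE P E) _ w ^ k)
    (hU₁ : (U : FE E (M * q * q))⁻¹ ∈ V₁) (hU₃ : (U : FE E (M * q * q))⁻¹ ∈ V₃)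
    (t : FE E (M * q * q)) (ht : UnifAt V₂ t)
    (hU₂ : UnitAt V₂ ((U : FE E (M * q * q)) * (t ^ (6 * kk))⁻¹))
    -- (R-RES)
    (hres : ((Mod3.jqq E M q - Mod3.j1 E M q) ^ (6 * kk)
        - (Mod3.j1 E M q ^ 4 * (Mod3.j1 E M q - 1728) ^ 3) ^ kk * (U : FE E (M * q * q)))
          * (U : FE E (M * q * q))⁻¹ ∈ V₂.nonunits) :
    PrincipalAt (chart (A2.RE P E) ({Mod3.x3E E M q} : Set (FE E (M * q * q)))) 𝔪 V₂ := by
  have D : MidData P E M q V₁' V₂' V₂ W' := midData_of_objs hStd hO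
  have hw0 : algebraMap (A2.RE P E) (FE E (M * q * q)) w ≠ 0 := by
    have e : algebraMap (A2.RE P E) (FE E (M * q * q)) w
        = algebraMap E (FE E (M * q * q)) (w : E) := rfl
    rw [e]
    refine (map_ne_zero_iff _ (algebraMap E (FE E (M * q * q))).injective).mpr ?_
    intro h
    exact hStd.unif.ne_zero (Subtype.ext h)
  have hj₁B := Mod3.H189.j1_mem_chart P E M q hStd.q_prime
  have hj₂B := Mod3.H189.jqq_mem_chart' P E M q hStd.q_prime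
  have h2B := two_inv_mem_chart hStd (two_dvd_of_four_dvd h4)
    ({Mod3.x3E E M q} : Set (FE E (M * q * q)))
  have hJ₁ := congrArg (fun x => αE E (M * q) q (αE E M q x)) (hJM E h4)
  have hJ₂ := congrArg (fun x => βE E (M * q) q (βE E M q x)) (hJM E h4)
  simp only [map_mul, map_add, map_pow, map_ofNat] at hJ₁ hJ₂
  rw [AA_jE_one] at hJ₁
  rw [GG_jE_one] at hJ₂
  have hres' := D.hres_t4 h4 (U : FE E (M * q * q)) kk (by rw [GG_jE_one, AA_jE_one]; exact hres)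
  exact principalAt_t4 w _ V₁ V₂ V₃ hw0 hB₁ hB₂ hB₃ hqep 𝔪 h𝔪 hthr U d k kk hkk hUd hU₁ hU₃
    t ht hU₂ (Mod3.j1 E M q) (Mod3.jqq E M q) _ _ hj₁B hj₂B h2B hJ₁ hJ₂ hres'

/-- **The same in the delivered shapes** of (R-U) (helper356 `PartRegU`, `U₀ = U_m`) and (R-RES)
(helper922 `h922_hres_mid` at `M₁ = M q`, `V = V₂`): the finite half `regular_f` of
`Mod3.PartReg` (middle disjunct) when `4 ∣ M`.  Same hypotheses as
`H890.principalAt_mid_t9_conc`. -/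
theorem principalAt_mid_t4_conc (hStd : Mod3.Std P E M q w)
    (hO : Mod3.Objs P E M q V₁' V₂' V₁ V₂ V₃ W' W) (h4 : 4 ∣ M)
    (hB₁ : ∀ b : chart (A2.RE P E) ({Mod3.x3E E M q} : Set (FE E (M * q * q))),
      (b : FE E (M * q * q)) ∈ V₁)
    (hB₂ : ∀ b : chart (A2.RE P E) ({Mod3.x3E E M q} : Set (FE E (M * q * q))),
      (b : FE E (M * q * q)) ∈ V₂)
    (hB₃ : ∀ b : chart (A2.RE P E) ({Mod3.x3E E M q} : Set (FE E (M * q * q))),
      (b : FE E (M * q * q)) ∈ V₃)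
    (hqep : Qep3 w (chart (A2.RE P E) ({Mod3.x3E E M q} : Set (FE E (M * q * q)))) V₁ V₂ V₃)
    (hunif : ∃ t : FE E (M * q * q), UnifAt V₂ t)
    -- (R-U)
    (U₀ : FE E (M * q * q)) (k : ℕ)
    (hpair : ∃ U d : chart (A2.RE P E) ({Mod3.x3E E M q} : Set (FE E (M * q * q))),
      (U : FE E (M * q * q)) = U₀ ∧ U * d = algebraMap (A2.RE P E) _ w ^ k)
    (hU₁ : U₀⁻¹ ∈ V₁) (hU₃ : U₀⁻¹ ∈ V₃)
    (hU₂ : ∀ t : FE E (M * q * q), UnifAt V₂ t → UnitAt V₂ (U₀ * (t ^ (12 * (q - 1)))⁻¹))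
    -- (R-RES)
    (hqM : q ∣ M * q)
    (hres : ((βE E (M * q) q (jE E (M * q) q hqM)
          - αE E (M * q) q (jE E (M * q) 1 (one_dvd _))) ^ (12 * (q - 1))
        - αE E (M * q) q ((jE E (M * q) 1 (one_dvd _) ^ 4
            * (jE E (M * q) 1 (one_dvd _) - 1728) ^ 3) ^ (2 * (q - 1))) * U₀) * U₀⁻¹
      ∈ V₂.nonunits)
    (𝔪 : Ideal (chart (A2.RE P E) ({Mod3.x3E E M q} : Set (FE E (M * q * q)))))
    (h𝔪 : 𝔪.IsMaximal) (hthr : Through _ 𝔪 V₂) :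
    PrincipalAt (chart (A2.RE P E) ({Mod3.x3E E M q} : Set (FE E (M * q * q)))) 𝔪 V₂ := by
  obtain ⟨t, ht⟩ := hunif
  obtain ⟨U, d, hUeq, hUd⟩ := hpair
  have hq1 : 0 < 2 * (q - 1) := by
    have := hStd.q_prime.two_le
    omega
  have e6 : 6 * (2 * (q - 1)) = 12 * (q - 1) := by ring
  haveI : NeZero (q * q) := ⟨mul_ne_zero (NeZero.ne q) (NeZero.ne q)⟩
  have ejqq : βE E (M * q) q (jE E (M * q) q hqM) = Mod3.jqq E M q := by
    rw [beta_jE' q hqM]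
    rfl
  have ej1 : αE E (M * q) q (jE E (M * q) 1 (one_dvd _)) = Mod3.j1 E M q := by
    rw [alpha_jE' 1 (one_dvd _)]
    rfl
  refine principalAt_mid_t4 hStd hO h4 hB₁ hB₂ hB₃ hqep 𝔪 h𝔪.ne_top hthr U d k (2 * (q - 1)) hq1
    hUd (by rw [hUeq]; exact hU₁) (by rw [hUeq]; exact hU₃) t ht
    (by rw [hUeq, e6]; exact hU₂ t ht) ?_
  rw [hUeq, e6]
  rw [ejqq, map_pow, map_mul, map_pow, map_pow, map_sub, map_ofNat, ej1] at hres
  exact hres

end Main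

end Fermat.Agent.S36.H878
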