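import Fermat.Agent.S36.Eng.Spec

/-!
# PU-self in the vocabulary of `Eng.TripleCtx` (helper878, S36 cell REG / MOD3 leaf `LeafReg`)

Elementwise form of `S36.H878.principal_of_unit_self`: NO Hartogs lemma, NO noetherianity,
NO localisation, NO `IsLocDVR`.  Everything is read off from `Eng.Qep3`.

`B ⊆ V₁ ∩ V₂ ∩ V₃` a chart with `Qep3 w B V₁ V₂ V₃`, `𝔪` a closed point on the component `V₂`,

* `U ∈ B` a unit of `B[1/w]` (`U d = w ^ k`), a unit of `V₁` and of `V₃`
  (`U = U_m`, the modular unit with divisor `N · [mid]`),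
* `x ∈ B` a uniformiser of `V₂`,
* `g ∈ B`, `g ∉ 𝔪`, with `x ^ N / U ≡ g` modulo `𝔪_{V₂}`.

Then `ω = x ^ N / U` lies in `B \ 𝔪` and `ω a = x (a x ^ (N - 1) / U)` for every `a ∈ B ∩ 𝔪_{V₂}`:
this is `Eng.PrincipalAt B 𝔪 V₂` with generator `x`.

* `qep3_pow`                        : `Qep3` iterated (`b / w ^ k ∈ V₁ ∩ V₂ ∩ V₃ ⟹ b / w ^ k ∈ B`);
* `principalAt_of_unit_self`        : the statement above;
* `unifAt_of_pow`                   : `x ^ N / U` and `U / t ^ N` units, `t` uniformiser ⟹ `x`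
                                      uniformiser;
* `principalAt_of_unit_self'`       : the same with `v₂(U) = N` instead of "`x` uniformiser".
-/

set_option autoImplicit false

namespace Fermat.Agent.S36.H878

open Fermat.Agent.S36.Eng

variable {R F : Type*} [CommRing R] [Field F] [Algebra R F]

/-- `Qep3`, iterated: an element `b / w ^ k` (`b ∈ B`) of `V₁ ∩ V₂ ∩ V₃` lies in `B`. -/
theorem qep3_pow (w : R) (B : Subalgebra R F) (V₁ V₂ V₃ : ValuationSubring F)
    (hw0 : algebraMap R F w ≠ 0)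
    (hw₁ : algebraMap R F w ∈ V₁) (hw₂ : algebraMap R F w ∈ V₂) (hw₃ : algebraMap R F w ∈ V₃)
    (hqep : Qep3 w B V₁ V₂ V₃) (k : ℕ) (b : B)
    (h₁ : (b : F) * (algebraMap R F w ^ k)⁻¹ ∈ V₁)
    (h₂ : (b : F) * (algebraMap R F w ^ k)⁻¹ ∈ V₂)
    (h₃ : (b : F) * (algebraMap R F w ^ k)⁻¹ ∈ V₃) :
    ∃ c : B, (c : F) = (b : F) * (algebraMap R F w ^ k)⁻¹ := by
  induction k generalizing b with
  | zero => exact ⟨b, by simp⟩
  | succ k ih =>
    have e : (b : F) * (algebraMap R F w)⁻¹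
        = (b : F) * (algebraMap R F w ^ (k + 1))⁻¹ * algebraMap R F w ^ k := by
      rw [pow_succ, mul_inv, mul_assoc, mul_assoc, mul_comm (algebraMap R F w)⁻¹,
        inv_mul_cancel_left₀ (pow_ne_zero k hw0)]
    obtain ⟨c, hc⟩ := hqep b
      (by rw [e]; exact V₁.mul_mem _ _ h₁ (pow_mem hw₁ k))
      (by rw [e]; exact V₂.mul_mem _ _ h₂ (pow_mem hw₂ k))
      (by rw [e]; exact V₃.mul_mem _ _ h₃ (pow_mem hw₃ k))
    have hcF : (b : F) = algebraMap R F w * (c : F) := by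
      have := congrArg (fun t : B => (t : F)) hc
      simpa using this
    have e' : (c : F) * (algebraMap R F w ^ k)⁻¹
        = (b : F) * (algebraMap R F w ^ (k + 1))⁻¹ := by
      rw [hcF, pow_succ, mul_inv]
      field_simp
    obtain ⟨c', hc'⟩ := ih c (by rw [e']; exact h₁) (by rw [e']; exact h₂) (by rw [e']; exact h₃)
    exact ⟨c', by rw [hc', e']⟩

/-- **PU-self, elementwise.**  See the header. -/
theorem principalAt_of_unit_self (w : R) (B : Subalgebra R F) (V₁ V₂ V₃ : ValuationSubring F)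
    (hw0 : algebraMap R F w ≠ 0)
    (hB₁ : ∀ b : B, (b : F) ∈ V₁) (hB₂ : ∀ b : B, (b : F) ∈ V₂) (hB₃ : ∀ b : B, (b : F) ∈ V₃)
    (hqep : Qep3 w B V₁ V₂ V₃)
    (𝔪 : Ideal B) (hthr : Through B 𝔪 V₂)
    (x U d g : B) (k N : ℕ) (hN : 0 < N)
    (hUd : U * d = algebraMap R B w ^ k)
    (hU₁ : (U : F)⁻¹ ∈ V₁) (hU₃ : (U : F)⁻¹ ∈ V₃)
    (hx : UnifAt V₂ (x : F)) (hg : g ∉ 𝔪)
    (hres : ((x : F) ^ N - (g : F) * (U : F)) * (U : F)⁻¹ ∈ V₂.nonunits) :
    PrincipalAt B 𝔪 V₂ := by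
  have hwB : ∀ V : ValuationSubring F, (∀ b : B, (b : F) ∈ V) → algebraMap R F w ∈ V :=
    fun V h => by simpa using h (algebraMap R B w)
  have hwk0 : algebraMap R F w ^ k ≠ 0 := pow_ne_zero k hw0
  have hUdF : (U : F) * (d : F) = algebraMap R F w ^ k := by
    have := congrArg (fun t : B => (t : F)) hUd
    simpa using this
  have hU0 : (U : F) ≠ 0 := by
    intro h
    rw [h, zero_mul] at hUdF
    exact hwk0 hUdF.symm
  have hd0 : (d : F) ≠ 0 := by
    intro h
    rw [h, mul_zero] at hUdF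
    exact hwk0 hUdF.symm
  have hUinv : (U : F)⁻¹ = (d : F) * (algebraMap R F w ^ k)⁻¹ := by
    rw [← hUdF]
    field_simp
  -- `ω = x ^ N / U`
  have hωsplit : (x : F) ^ N * (U : F)⁻¹
      = ((x : F) ^ N - (g : F) * (U : F)) * (U : F)⁻¹ + (g : F) := by
    rw [sub_mul, mul_assoc (g : F), mul_inv_cancel₀ hU0, mul_one, sub_add_cancel]
  have hres' : ((x : F) ^ N - (g : F) * (U : F)) * (U : F)⁻¹ ∈ V₂ :=
    (V₂.valuation_le_one_iff _).1 ((V₂.mem_nonunits_iff).1 hres).le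
  have hω₂ : (x : F) ^ N * (U : F)⁻¹ ∈ V₂ := by
    rw [hωsplit]
    exact V₂.add_mem _ _ hres' (hB₂ g)
  obtain ⟨ω, hω⟩ := qep3_pow w B V₁ V₂ V₃ hw0 (hwB V₁ hB₁) (hwB V₂ hB₂) (hwB V₃ hB₃) hqep k
    (x ^ N * d)
    (by
      have : ((x ^ N * d : B) : F) * (algebraMap R F w ^ k)⁻¹ = (x : F) ^ N * (U : F)⁻¹ := by
        rw [hUinv]; push_cast; ring
      rw [this]
      exact V₁.mul_mem _ _ (pow_mem (hB₁ x) N) hU₁)
    (by
      have : ((x ^ N * d : B) : F) * (algebraMap R F w ^ k)⁻¹ = (x : F) ^ N * (U : F)⁻¹ := by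
        rw [hUinv]; push_cast; ring
      rw [this]
      exact hω₂)
    (by
      have : ((x ^ N * d : B) : F) * (algebraMap R F w ^ k)⁻¹ = (x : F) ^ N * (U : F)⁻¹ := by
        rw [hUinv]; push_cast; ring
      rw [this]
      exact V₃.mul_mem _ _ (pow_mem (hB₃ x) N) hU₃)
  have hωF : (ω : F) = (x : F) ^ N * (U : F)⁻¹ := by
    rw [hω, hUinv]; push_cast; ring
  -- `ω ∉ 𝔪`
  have hω𝔪 : ω ∉ 𝔪 := by
    intro hmem
    have h1 : ω - g ∈ 𝔪 := by
      apply hthr
      have : ((ω - g : B) : F) = ((x : F) ^ N - (g : F) * (U : F)) * (U : F)⁻¹ := by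
        push_cast
        rw [hωF, hωsplit]
        ring
      rw [this]
      exact hres
    apply hg
    have := 𝔪.sub_mem hmem h1
    simpa using this
  obtain ⟨hx0, hxnu, hxunif⟩ := hx
  refine ⟨x, hxnu, fun a ha => ?_⟩
  -- `z = a x ^ (N - 1) / U`
  obtain ⟨N', rfl⟩ : ∃ N', N = N' + 1 := ⟨N - 1, by omega⟩
  have hz₂ : (a : F) * (x : F) ^ N' * (U : F)⁻¹ ∈ V₂ := by
    have : (a : F) * (x : F) ^ N' * (U : F)⁻¹
        = ((a : F) * (x : F)⁻¹) * ((x : F) ^ (N' + 1) * (U : F)⁻¹) := by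
      rw [pow_succ]
      field_simp
    rw [this]
    exact V₂.mul_mem _ _ (hxunif _ ha) hω₂
  obtain ⟨z, hz⟩ := qep3_pow w B V₁ V₂ V₃ hw0 (hwB V₁ hB₁) (hwB V₂ hB₂) (hwB V₃ hB₃) hqep k
    (a * x ^ N' * d)
    (by
      have : ((a * x ^ N' * d : B) : F) * (algebraMap R F w ^ k)⁻¹
          = (a : F) * (x : F) ^ N' * (U : F)⁻¹ := by
        rw [hUinv]; push_cast; ring
      rw [this]
      exact V₁.mul_mem _ _ (V₁.mul_mem _ _ (hB₁ a) (pow_mem (hB₁ x) N')) hU₁)
    (by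
      have : ((a * x ^ N' * d : B) : F) * (algebraMap R F w ^ k)⁻¹
          = (a : F) * (x : F) ^ N' * (U : F)⁻¹ := by
        rw [hUinv]; push_cast; ring
      rw [this]
      exact hz₂)
    (by
      have : ((a * x ^ N' * d : B) : F) * (algebraMap R F w ^ k)⁻¹
          = (a : F) * (x : F) ^ N' * (U : F)⁻¹ := by
        rw [hUinv]; push_cast; ring
      rw [this]
      exact V₃.mul_mem _ _ (V₃.mul_mem _ _ (hB₃ a) (pow_mem (hB₃ x) N')) hU₃)
  have hzF : (z : F) = (a : F) * (x : F) ^ N' * (U : F)⁻¹ := by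
    rw [hz, hUinv]; push_cast; ring
  refine ⟨ω, z, hω𝔪, ?_⟩
  apply Subtype.ext
  push_cast
  rw [hωF, hzF, pow_succ]
  ring

/-- In a valuation subring: if `t` is a uniformiser and `x ^ N` has the valuation of `t ^ N`
(`N > 0`), then `x` is a uniformiser. -/
theorem unifAt_of_pow (V : ValuationSubring F) (t x : F) (N : ℕ) (hN : 0 < N)
    (ht : UnifAt V t) (hxt : V.valuation x ^ N = V.valuation t ^ N) : UnifAt V x := by
  obtain ⟨ht0, htnu, htunif⟩ := ht
  have hvx : V.valuation x = V.valuation t := by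
    rcases lt_trichotomy (V.valuation x) (V.valuation t) with h | h | h
    · exfalso
      have := pow_lt_pow_left₀ h (zero_le (a := V.valuation _)) hN.ne'
      rw [hxt] at this
      exact lt_irrefl _ this
    · exact h
    · exfalso
      have := pow_lt_pow_left₀ h (zero_le (a := V.valuation _)) hN.ne'
      rw [hxt] at this
      exact lt_irrefl _ this
  have hvt0 : V.valuation t ≠ 0 := by rw [Ne, map_eq_zero]; exact ht0
  have hx0 : x ≠ 0 := by
    intro h
    rw [h, map_zero] at hvx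
    exact hvt0 hvx.symm
  refine ⟨hx0, ?_, fun f hf => ?_⟩
  · rw [ValuationSubring.mem_nonunits_iff, hvx]
    exact (V.mem_nonunits_iff).1 htnu
  · have h1 := htunif f hf
    rw [← V.valuation_le_one_iff] at h1 ⊢
    rw [map_mul, map_inv₀] at h1 ⊢
    rwa [hvx]

/-- A unit of a valuation subring has valuation one. -/
theorem valuation_eq_one_of_unitAt (V : ValuationSubring F) {y : F} (hy : UnitAt V y) :
    V.valuation y = 1 := by
  obtain ⟨hy0, hy1, hy2⟩ := hy
  have h1 : V.valuation y ≤ 1 := (V.valuation_le_one_iff _).2 hy1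
  have h2 : V.valuation y⁻¹ ≤ 1 := (V.valuation_le_one_iff _).2 hy2
  rw [map_inv₀] at h2
  have hv0 : V.valuation y ≠ 0 := by rw [Ne, map_eq_zero]; exact hy0
  have h3 : 1 ≤ V.valuation y := by
    have := (inv_le_one₀ (zero_lt_iff.2 hv0)).1 h2
    exact this
  exact le_antisymm h1 h3

/-- An element of valuation one is a unit of the valuation subring. -/
theorem unitAt_of_valuation_eq_one (V : ValuationSubring F) {y : F} (hy : V.valuation y = 1) :
    UnitAt V y := by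
  refine ⟨fun h => ?_, (V.valuation_le_one_iff _).1 hy.le, ?_⟩
  · rw [h, map_zero] at hy
    exact zero_ne_one hy
  · rw [← V.valuation_le_one_iff, map_inv₀, hy, inv_one]

/-- **PU-self, elementwise, divisor form**: `v₂(U) = N` (`U / t ^ N` a unit of `V₂` for a
uniformiser `t`) instead of "`x` is a uniformiser of `V₂`". -/
theorem principalAt_of_unit_self' (w : R) (B : Subalgebra R F) (V₁ V₂ V₃ : ValuationSubring F)
    (hw0 : algebraMap R F w ≠ 0)
    (hB₁ : ∀ b : B, (b : F) ∈ V₁) (hB₂ : ∀ b : B, (b : F) ∈ V₂) (hB₃ : ∀ b : B, (b : F) ∈ V₃)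
    (hqep : Qep3 w B V₁ V₂ V₃)
    (𝔪 : Ideal B) (hthr : Through B 𝔪 V₂)
    (x U d g : B) (k N : ℕ) (hN : 0 < N)
    (hUd : U * d = algebraMap R B w ^ k)
    (hU₁ : (U : F)⁻¹ ∈ V₁) (hU₃ : (U : F)⁻¹ ∈ V₃)
    (t : F) (ht : UnifAt V₂ t) (hU₂ : UnitAt V₂ ((U : F) * (t ^ N)⁻¹))
    (hg : g ∉ 𝔪)
    (hres : ((x : F) ^ N - (g : F) * (U : F)) * (U : F)⁻¹ ∈ V₂.nonunits) :
    PrincipalAt B 𝔪 V₂ := by
  have hwk0 : algebraMap R F w ^ k ≠ 0 := pow_ne_zero k hw0
  have hUdF : (U : F) * (d : F) = algebraMap R F w ^ k := by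
    have := congrArg (fun t : B => (t : F)) hUd
    simpa using this
  have hU0 : (U : F) ≠ 0 := by
    intro h
    rw [h, zero_mul] at hUdF
    exact hwk0 hUdF.symm
  -- `g` is a unit of `V₂`
  have hvg : V₂.valuation (g : F) = 1 := by
    have h1 : V₂.valuation (g : F) ≤ 1 := (V₂.valuation_le_one_iff _).2 (hB₂ g)
    rcases lt_or_eq_of_le h1 with h | h
    · exact absurd (hthr g ((V₂.mem_nonunits_iff).2 h)) hg
    · exact h
  -- `x ^ N / U` is a unit of `V₂`
  have hsplit : (x : F) ^ N * (U : F)⁻¹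
      = ((x : F) ^ N - (g : F) * (U : F)) * (U : F)⁻¹ + (g : F) := by
    rw [sub_mul, mul_assoc (g : F), mul_inv_cancel₀ hU0, mul_one, sub_add_cancel]
  have hone : V₂.valuation ((x : F) ^ N * (U : F)⁻¹) = 1 := by
    rw [hsplit, ← hvg]
    apply Valuation.map_add_eq_of_lt_right
    rw [hvg]
    exact (V₂.mem_nonunits_iff).1 hres
  have hvU : V₂.valuation (U : F) = V₂.valuation t ^ N := by
    have h := valuation_eq_one_of_unitAt V₂ hU₂
    rw [map_mul, map_inv₀, map_pow] at h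
    have hne : V₂.valuation t ^ N ≠ 0 := by
      apply pow_ne_zero
      rw [Ne, map_eq_zero]; exact ht.1
    calc V₂.valuation (U : F)
        = V₂.valuation (U : F) * (V₂.valuation t ^ N)⁻¹ * V₂.valuation t ^ N := by
          rw [mul_assoc, inv_mul_cancel₀ hne, mul_one]
      _ = V₂.valuation t ^ N := by rw [h, one_mul]
  have hvx : V₂.valuation (x : F) ^ N = V₂.valuation t ^ N := by
    rw [map_mul, map_inv₀, map_pow] at hone
    have hne : V₂.valuation (U : F) ≠ 0 := by rw [Ne, map_eq_zero]; exact hU0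
    calc V₂.valuation (x : F) ^ N
        = V₂.valuation (x : F) ^ N * (V₂.valuation (U : F))⁻¹ * V₂.valuation (U : F) := by
          rw [mul_assoc, inv_mul_cancel₀ hne, mul_one]
      _ = V₂.valuation t ^ N := by rw [hone, one_mul, hvU]
  exact principalAt_of_unit_self w B V₁ V₂ V₃ hw0 hB₁ hB₂ hB₃ hqep 𝔪 hthr x U d g k N hN hUd
    hU₁ hU₃ (unifAt_of_pow V₂ t (x : F) N hN ht hvx) hg hres

end Fermat.Agent.S36.H878
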